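/-
M1a (JAC programme, S25): local morphisms of modules on a scheme, sectionwise.

`LocalHom M N U` is the type of natural, linear families `Γ(M, W) →+ Γ(N, W)` indexed by the
opens `W ≤ U` of `X`.  It is the sectionwise incarnation of a morphism between the restrictions
of `M` and `N` to `U`, and the convenient home for gluing statements.
-/
import Mathlib

set_option autoImplicit false

universe u

open CategoryTheory AlgebraicGeometry TopologicalSpace Opposite

namespace Fermat.Agent.Jac.ModGlue88

variable {X : Scheme.{u}}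

/-- Restriction of sections of a module along an inclusion of opens, as an additive map. -/
noncomputable def res (N : X.Modules) {W' W : X.Opens} (h : W' ≤ W) : Γ(N, W) →+ Γ(N, W') :=
  (N.presheaf.map (homOfLE h).op).hom

lemma res_eq_map (N : X.Modules) {W' W : X.Opens} (f : W' ⟶ W) (x : Γ(N, W)) :
    N.presheaf.map f.op x = res N (leOfHom f) x := rfl

@[simp] lemma res_self (N : X.Modules) (W : X.Opens) (x : Γ(N, W)) : res N (le_refl W) x = x := by
  change (N.presheaf.map (𝟙 (op W))) x = x
  simp

@[simp] lemma res_res (N : X.Modules) {W'' W' W : X.Opens} (h' : W'' ≤ W') (h : W' ≤ W)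
    (x : Γ(N, W)) : res N h' (res N h x) = res N (h'.trans h) x := by
  change (N.presheaf.map (homOfLE h).op ≫ N.presheaf.map (homOfLE h').op) x = _
  rw [← Functor.map_comp]
  rfl

/-- Restriction of functions along an inclusion of opens. -/
noncomputable def resO (X : Scheme.{u}) {W' W : X.Opens} (h : W' ≤ W) : Γ(X, W) →+* Γ(X, W') :=
  (X.presheaf.map (homOfLE h).op).hom

lemma resO_eq_map {W' W : X.Opens} (f : W' ⟶ W) (x : Γ(X, W)) :
    X.presheaf.map f.op x = resO X (leOfHom f) x := rfl

@[simp] lemma resO_self (W : X.Opens) (x : Γ(X, W)) : resO X (le_refl W) x = x := by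
  change (X.presheaf.map (𝟙 (op W))) x = x
  simp

@[simp] lemma resO_resO {W'' W' W : X.Opens} (h' : W'' ≤ W') (h : W' ≤ W)
    (x : Γ(X, W)) : resO X h' (resO X h x) = resO X (h'.trans h) x := by
  change (X.presheaf.map (homOfLE h).op ≫ X.presheaf.map (homOfLE h').op) x = _
  rw [← Functor.map_comp]
  rfl

lemma res_smul (N : X.Modules) {W' W : X.Opens} (h : W' ≤ W) (r : Γ(X, W)) (x : Γ(N, W)) :
    res N h (r • x) = resO X h r • res N h x :=
  Scheme.Modules.map_smul N (homOfLE h) r x

/-- A global morphism commutes with restriction of sections. -/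
lemma hom_app_res {M N : X.Modules} (f : M ⟶ N) {W' W : X.Opens} (h : W' ≤ W) (x : Γ(M, W)) :
    res N h (f.app W x) = f.app W' (res M h x) := by
  have := f.mapPresheaf.naturality (homOfLE h).op
  exact (congrArg (fun g => g x) this).symm

section SheafLemmas

variable (N : X.Modules)

/-- Sections of a module are determined locally. -/
lemma res_ext {κ : Type*} (Wa : κ → X.Opens) (W : X.Opens) (h : ∀ a, Wa a ≤ W)
    (hcover : W ≤ iSup Wa) (s t : Γ(N, W)) (hst : ∀ a, res N (h a) s = res N (h a) t) : s = t :=
  TopCat.Sheaf.eq_of_locally_eq' (⟨N.presheaf, N.isSheaf⟩ : TopCat.Sheaf Ab X) Wa W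
    (fun a => homOfLE (h a)) hcover s t hst

/-- Compatible sections of a module glue. -/
lemma res_glue {κ : Type*} (Wa : κ → X.Opens) (W : X.Opens) (h : ∀ a, Wa a ≤ W)
    (hcover : W ≤ iSup Wa) (sf : ∀ a, Γ(N, Wa a))
    (hcompat : ∀ a b, res N (inf_le_left : Wa a ⊓ Wa b ≤ Wa a) (sf a) =
      res N (inf_le_right : Wa a ⊓ Wa b ≤ Wa b) (sf b)) :
    ∃ s : Γ(N, W), ∀ a, res N (h a) s = sf a := by
  obtain ⟨s, hs, -⟩ := TopCat.Sheaf.existsUnique_gluing'
    (⟨N.presheaf, N.isSheaf⟩ : TopCat.Sheaf Ab X) Wa W
    (fun a => homOfLE (h a)) hcover sf hcompat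
  exact ⟨s, hs⟩

end SheafLemmas

/-- A local morphism `M ⟶ N` over the open `U`: a natural, linear family of maps on the sections
over all opens `W ≤ U`. -/
structure LocalHom (M N : X.Modules) (U : X.Opens) where
  /-- the map on sections over `W ≤ U` -/
  app : ∀ W : X.Opens, W ≤ U → (Γ(M, W) →+ Γ(N, W))
  app_res : ∀ (W' W : X.Opens) (hW : W ≤ U) (h : W' ≤ W) (x : Γ(M, W)),
    res N h (app W hW x) = app W' (h.trans hW) (res M h x)
  app_smul : ∀ (W : X.Opens) (hW : W ≤ U) (r : Γ(X, W)) (x : Γ(M, W)),
    app W hW (r • x) = r • app W hW x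

namespace LocalHom

variable {M N P : X.Modules} {U U' : X.Opens}

@[ext] lemma ext {L L' : LocalHom M N U}
    (h : ∀ (W : X.Opens) (hW : W ≤ U) (x : Γ(M, W)), L.app W hW x = L'.app W hW x) : L = L' := by
  cases L with | mk a _ _ =>
  cases L' with | mk a' _ _ =>
  have : a = a' := by
    funext W hW
    exact AddMonoidHom.ext (h W hW)
  subst this
  rfl

/-- The identity local morphism. -/
noncomputable def id (M : X.Modules) (U : X.Opens) : LocalHom M M U where
  app _ _ := AddMonoidHom.id _
  app_res _ _ _ _ _ := rfl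
  app_smul _ _ _ _ := rfl

/-- Composition of local morphisms. -/
noncomputable def comp (L : LocalHom M N U) (L' : LocalHom N P U) : LocalHom M P U where
  app W hW := (L'.app W hW).comp (L.app W hW)
  app_res W' W hW h x := by
    simp only [AddMonoidHom.comp_apply]
    rw [L'.app_res, L.app_res]
  app_smul W hW r x := by
    simp only [AddMonoidHom.comp_apply]
    rw [L.app_smul, L'.app_smul]

@[simp] lemma id_app (W : X.Opens) (hW : W ≤ U) (x : Γ(M, W)) : (id M U).app W hW x = x := rfl

@[simp] lemma comp_app (L : LocalHom M N U) (L' : LocalHom N P U) (W : X.Opens) (hW : W ≤ U)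
    (x : Γ(M, W)) : (L.comp L').app W hW x = L'.app W hW (L.app W hW x) := rfl

@[simp] lemma id_comp (L : LocalHom M N U) : (id M U).comp L = L := by ext; rfl

@[simp] lemma comp_id (L : LocalHom M N U) : L.comp (id N U) = L := by ext; rfl

lemma comp_assoc {Q : X.Modules} (L : LocalHom M N U) (L' : LocalHom N P U)
    (L'' : LocalHom P Q U) : (L.comp L').comp L'' = L.comp (L'.comp L'') := by ext; rfl

/-- Restriction of a local morphism to a smaller open. -/
noncomputable def restrict (L : LocalHom M N U) (h : U' ≤ U) : LocalHom M N U' where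
  app W hW := L.app W (hW.trans h)
  app_res W' W hW h' x := L.app_res W' W (hW.trans h) h' x
  app_smul W hW r x := L.app_smul W (hW.trans h) r x

@[simp] lemma restrict_app (L : LocalHom M N U) (h : U' ≤ U) (W : X.Opens) (hW : W ≤ U')
    (x : Γ(M, W)) : (L.restrict h).app W hW x = L.app W (hW.trans h) x := rfl

@[simp] lemma restrict_id (h : U' ≤ U) : (id M U).restrict h = id M U' := by ext; rfl

@[simp] lemma restrict_comp (L : LocalHom M N U) (L' : LocalHom N P U) (h : U' ≤ U) :
    (L.comp L').restrict h = (L.restrict h).comp (L'.restrict h) := by ext; rfl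

@[simp] lemma restrict_restrict {U'' : X.Opens} (L : LocalHom M N U) (h : U' ≤ U)
    (h' : U'' ≤ U') : (L.restrict h).restrict h' = L.restrict (h'.trans h) := by ext; rfl

/-- The local morphism over `U` induced by a global morphism. -/
noncomputable def ofHom (f : M ⟶ N) (U : X.Opens) : LocalHom M N U where
  app W _ := (f.app W).hom
  app_res _ _ _ h x := hom_app_res f h x
  app_smul _ _ r x := Scheme.Modules.Hom.app_smul f r x

@[simp] lemma ofHom_app (f : M ⟶ N) (W : X.Opens) (hW : W ≤ U) (x : Γ(M, W)) :
    (ofHom f U).app W hW x = f.app W x := rfl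

@[simp] lemma ofHom_id : ofHom (𝟙 M) U = id M U := by ext; rfl

@[simp] lemma ofHom_comp (f : M ⟶ N) (g : N ⟶ P) :
    ofHom (f ≫ g) U = (ofHom f U).comp (ofHom g U) := by ext; rfl

@[simp] lemma ofHom_restrict (f : M ⟶ N) (h : U' ≤ U) :
    (ofHom f U).restrict h = ofHom f U' := by ext; rfl

end LocalHom

end Fermat.Agent.Jac.ModGlue88
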