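/-
M1a (JAC programme, S25): local morphisms of modules glue (Hom is a sheaf).
-/
import Fermat.Agent.Jac.ModGlue88.Basic

set_option autoImplicit false

universe u

open CategoryTheory AlgebraicGeometry TopologicalSpace Opposite

namespace Fermat.Agent.Jac.ModGlue88

variable {X : Scheme.{u}}

namespace LocalHom

variable {M N : X.Modules}

/-- A local morphism over `⊤` is a global morphism. -/
noncomputable def toHom (L : LocalHom M N ⊤) : M ⟶ N :=
  ⟨PresheafOfModules.homMk
    { app := fun W => AddCommGrpCat.ofHom (L.app W.unop le_top)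
      naturality := by
        intro W W' f
        ext x
        exact (L.app_res W'.unop W.unop le_top (leOfHom f.unop) x).symm }
    (by
      intro W r m
      exact L.app_smul W.unop le_top r m)⟩

@[simp] lemma toHom_app (L : LocalHom M N ⊤) (W : X.Opens) (x : Γ(M, W)) :
    L.toHom.app W x = L.app W le_top x := rfl

@[simp] lemma ofHom_toHom (L : LocalHom M N ⊤) : ofHom L.toHom ⊤ = L := by
  ext W hW x
  rfl

@[simp] lemma toHom_ofHom (f : M ⟶ N) : (ofHom f ⊤).toHom = f := by
  apply Scheme.Modules.hom_ext
  intro W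
  ext x
  rfl


section Glue

variable {κ : Type*} (U : κ → X.Opens) (U₀ : X.Opens) (hU : ∀ i, U i ≤ U₀)
  (hcover : U₀ ≤ iSup U) (L : ∀ i, LocalHom M N (U i))

/-- Pointwise form of the compatibility of a family of local morphisms on overlaps. -/
lemma app_eq_of_compat
    (hL : ∀ i j, (L i).restrict (inf_le_left : U i ⊓ U j ≤ U i) =
      (L j).restrict (inf_le_right : U i ⊓ U j ≤ U j))
    (i j : κ) (W : X.Opens) (hi : W ≤ U i) (hj : W ≤ U j) (x : Γ(M, W)) :
    (L i).app W hi x = (L j).app W hj x :=
  congrArg (fun L' : LocalHom M N (U i ⊓ U j) => L'.app W (le_inf hi hj) x) (hL i j)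

include hcover in
lemma cover_aux (W : X.Opens) (hW : W ≤ U₀) : W ≤ ⨆ i, W ⊓ U i := by
  rw [← inf_iSup_eq]
  exact le_inf le_rfl (hW.trans hcover)

include hcover in
lemma glue_exists
    (hL : ∀ i j, (L i).restrict (inf_le_left : U i ⊓ U j ≤ U i) =
      (L j).restrict (inf_le_right : U i ⊓ U j ≤ U j))
    (W : X.Opens) (hW : W ≤ U₀) (x : Γ(M, W)) :
    ∃ t : Γ(N, W), ∀ i, res N (inf_le_left : W ⊓ U i ≤ W) t =
      (L i).app (W ⊓ U i) inf_le_right (res M inf_le_left x) := by
  refine res_glue N (fun i => W ⊓ U i) W (fun i => inf_le_left) (cover_aux U U₀ hcover W hW)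
    (fun i => (L i).app (W ⊓ U i) inf_le_right (res M inf_le_left x)) ?_
  intro i j
  rw [(L i).app_res, (L j).app_res, res_res, res_res]
  exact app_eq_of_compat U L hL i j _ _ _ _

include hcover in
lemma glue_unique (W : X.Opens) (hW : W ≤ U₀) (t t' : Γ(N, W))
    (h : ∀ i : κ, res N (inf_le_left : W ⊓ U i ≤ W) t = res N (inf_le_left : W ⊓ U i ≤ W) t') :
    t = t' :=
  res_ext N (fun i => W ⊓ U i) W (fun i => inf_le_left) (cover_aux U U₀ hcover W hW) t t' h

include hcover in
/-- The glued local morphism: existence and uniqueness. -/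
theorem existsUnique_glue
    (hL : ∀ i j, (L i).restrict (inf_le_left : U i ⊓ U j ≤ U i) =
      (L j).restrict (inf_le_right : U i ⊓ U j ≤ U j)) :
    ∃! L₀ : LocalHom M N U₀, ∀ i, L₀.restrict (hU i) = L i := by
  classical
  -- the section-level choice
  let F : ∀ (W : X.Opens) (hW : W ≤ U₀), Γ(M, W) → Γ(N, W) := fun W hW x =>
    (glue_exists U U₀ hcover L hL W hW x).choose
  have hF : ∀ (W : X.Opens) (hW : W ≤ U₀) (x : Γ(M, W)) (i : κ),
      res N (inf_le_left : W ⊓ U i ≤ W) (F W hW x) =
        (L i).app (W ⊓ U i) inf_le_right (res M inf_le_left x) := fun W hW x =>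
    (glue_exists U U₀ hcover L hL W hW x).choose_spec
  let L₀ : LocalHom M N U₀ :=
    { app := fun W hW =>
        { toFun := F W hW
          map_zero' := by
            refine glue_unique U U₀ hcover W hW _ _ (fun i => ?_)
            rw [hF W hW]; simp
          map_add' := by
            intro x y
            refine glue_unique U U₀ hcover W hW _ _ (fun i => ?_)
            rw [hF W hW, map_add, map_add, map_add, hF W hW, hF W hW] }
      app_res := by
        intro W' W hW h x
        refine glue_unique U U₀ hcover W' (h.trans hW) _ _ (fun i => ?_)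
        change res N _ (res N h (F W hW x)) = res N _ (F W' (h.trans hW) (res M h x))
        rw [hF W' (h.trans hW), res_res]
        have h1 : res N (inf_le_inf_right (U i) h) (res N (inf_le_left : W ⊓ U i ≤ W) (F W hW x)) =
            res N ((inf_le_left : W' ⊓ U i ≤ W').trans h) (F W hW x) := by rw [res_res]
        rw [← h1, hF W hW, (L i).app_res, res_res, res_res]
      app_smul := by
        intro W hW r x
        refine glue_unique U U₀ hcover W hW _ _ (fun i => ?_)
        change res N _ (F W hW (r • x)) = res N _ (r • F W hW x)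
        rw [hF W hW, res_smul, res_smul, (L i).app_smul, hF W hW] }
  refine ⟨L₀, ?_, ?_⟩
  · intro i
    ext W hW x
    change F W (hW.trans (hU i)) x = (L i).app W hW x
    refine glue_unique U U₀ hcover W (hW.trans (hU i)) _ _ (fun j => ?_)
    rw [hF W (hW.trans (hU i)), (L i).app_res]
    exact app_eq_of_compat U L hL j i _ _ _ _
  · intro L₁ hL₁
    ext W hW x
    refine glue_unique U U₀ hcover W hW _ _ (fun i => ?_)
    change _ = res N _ (F W hW x)
    rw [hF W hW, L₁.app_res, ← hL₁ i]
    rfl

end Glue


section Global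

variable {κ : Type*} (U : κ → X.Opens) (hcover : iSup U = ⊤)

include hcover in
/-- Two morphisms of modules which agree locally on an open cover are equal. -/
theorem hom_ext_of_cover (f g : M ⟶ N) (h : ∀ i, ofHom f (U i) = ofHom g (U i)) : f = g := by
  have h1 := existsUnique_glue U ⊤ (fun _ => le_top) (le_of_eq hcover.symm)
    (fun i => ofHom f (U i)) (fun i j => by simp)
  have hf : ∀ i, (ofHom f ⊤).restrict (le_top : U i ≤ ⊤) = ofHom f (U i) := fun i => by simp
  have hg : ∀ i, (ofHom g ⊤).restrict (le_top : U i ≤ ⊤) = ofHom f (U i) := fun i => by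
    simp [h i]
  have := h1.unique hf hg
  rw [← toHom_ofHom f, ← toHom_ofHom g, this]

include hcover in
/-- Sectionwise form of `hom_ext_of_cover`. -/
theorem hom_ext_of_cover' (f g : M ⟶ N)
    (h : ∀ (i : κ) (W : X.Opens), W ≤ U i → ∀ x : Γ(M, W), f.app W x = g.app W x) : f = g :=
  hom_ext_of_cover U hcover f g (fun i => LocalHom.ext (fun W hW x => h i W hW x))

include hcover in
/-- A compatible family of local morphisms on an open cover glues to a unique global morphism. -/
theorem existsUnique_hom_of_cover (L : ∀ i, LocalHom M N (U i))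
    (hL : ∀ i j, (L i).restrict (inf_le_left : U i ⊓ U j ≤ U i) =
      (L j).restrict (inf_le_right : U i ⊓ U j ≤ U j)) :
    ∃! f : M ⟶ N, ∀ i, ofHom f (U i) = L i := by
  obtain ⟨L₀, hL₀, huniq⟩ := existsUnique_glue U ⊤ (fun _ => le_top) (le_of_eq hcover.symm) L hL
  refine ⟨L₀.toHom, fun i => ?_, fun g hg => ?_⟩
  · rw [← hL₀ i, ← ofHom_restrict L₀.toHom (le_top : U i ≤ ⊤), ofHom_toHom]
  · have : ofHom g ⊤ = L₀ := huniq _ (fun i => by rw [ofHom_restrict, hg i])
    rw [← this, toHom_ofHom]

end Global


section IsoLocal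

variable {κ : Type*} (U : κ → X.Opens) (hcover : iSup U = ⊤)

include hcover in
lemma cover_aux' (V : X.Opens) : V ≤ ⨆ i, V ⊓ U i := by
  rw [← inf_iSup_eq, hcover]
  exact le_inf le_rfl le_top

include hcover in
/-- A morphism of modules which is bijective on the sections over every open contained in a
member of an open cover is an isomorphism. -/
theorem isIso_of_cover (f : M ⟶ N)
    (h : ∀ (i : κ) (W : X.Opens), W ≤ U i → Function.Bijective (f.app W)) : IsIso f := by
  rw [Scheme.Modules.Hom.isIso_iff_isIso_app]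
  intro V
  rw [ConcreteCategory.isIso_iff_bijective]
  have hinj : ∀ (V : X.Opens) (x : Γ(M, V)), f.app V x = 0 → x = 0 := by
    intro V x hx
    refine res_ext M (fun i => V ⊓ U i) V (fun i => inf_le_left) (cover_aux' U hcover V) x 0
      (fun i => ?_)
    apply (h i (V ⊓ U i) inf_le_right).1
    rw [← hom_app_res, hx]
    simp
  constructor
  · intro x y hxy
    have := hinj V (x - y) (by rw [map_sub, hxy, sub_self])
    exact sub_eq_zero.mp this
  · intro y
    have hx : ∀ i, ∃ x : Γ(M, V ⊓ U i), f.app (V ⊓ U i) x = res N inf_le_left y := fun i =>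
      (h i (V ⊓ U i) inf_le_right).2 _
    choose x hx using hx
    obtain ⟨x₀, hx₀⟩ := res_glue M (fun i => V ⊓ U i) V (fun i => inf_le_left)
      (cover_aux' U hcover V) x (by
        intro i j
        have := hinj _ (res M (inf_le_left : (V ⊓ U i) ⊓ (V ⊓ U j) ≤ V ⊓ U i) (x i) -
          res M (inf_le_right : (V ⊓ U i) ⊓ (V ⊓ U j) ≤ V ⊓ U j) (x j)) (by
            rw [map_sub, ← hom_app_res, ← hom_app_res, hx, hx, res_res, res_res, sub_self])
        exact sub_eq_zero.mp this)
    refine ⟨x₀, ?_⟩
    refine res_ext N (fun i => V ⊓ U i) V (fun i => inf_le_left) (cover_aux' U hcover V) _ _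
      (fun i => ?_)
    rw [hom_app_res, hx₀, hx]

include hcover in
/-- A morphism of modules which has local inverses on an open cover is an isomorphism. -/
theorem isIso_of_cover_localInv (f : M ⟶ N) (g : ∀ i, LocalHom N M (U i))
    (h1 : ∀ i, (ofHom f (U i)).comp (g i) = id M (U i))
    (h2 : ∀ i, (g i).comp (ofHom f (U i)) = id N (U i)) : IsIso f := by
  refine isIso_of_cover U hcover f (fun i W hW => ?_)
  refine Function.bijective_iff_has_inverse.mpr ⟨(g i).app W hW, fun x => ?_, fun y => ?_⟩
  · exact congrArg (fun L : LocalHom M M (U i) => L.app W hW x) (h1 i)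
  · exact congrArg (fun L : LocalHom N N (U i) => L.app W hW y) (h2 i)

end IsoLocal

end LocalHom

end Fermat.Agent.Jac.ModGlue88
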