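/-
M1a (JAC programme, S25): local morphisms versus morphisms between restrictions along an open
immersion (Mathlib's `Scheme.Modules.restrictFunctor`).
-/
import Fermat.Agent.Jac.ModGlue88.HomGlue

set_option autoImplicit false

universe u

open CategoryTheory AlgebraicGeometry TopologicalSpace Opposite

namespace Fermat.Agent.Jac.ModGlue88

variable {X Y : Scheme.{u}} (g : Y ⟶ X) [IsOpenImmersion g] {M N P : X.Modules}

/-- The identification (a definitional equality) of the sections of a restricted module with
sections of the original module, as an explicit additive equivalence. -/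
noncomputable def rIn (M : X.Modules) (V : Y.Opens) : Γ(M, g ''ᵁ V) ≃+ Γ(M.restrict g, V) :=
  AddEquiv.refl _

/-- Restriction maps of a restricted module are restriction maps of the original module. -/
lemma rIn_res (M : X.Modules) {V' V : Y.Opens} (h : V' ≤ V) (x : Γ(M, g ''ᵁ V)) :
    rIn g M V' (res M (g.image_mono h) x) = res (M.restrict g) h (rIn g M V x) := rfl

lemma rIn_symm_res (M : X.Modules) {V' V : Y.Opens} (h : V' ≤ V) (y : Γ(M.restrict g, V)) :
    (rIn g M V').symm (res (M.restrict g) h y) = res M (g.image_mono h) ((rIn g M V).symm y) := rfl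

lemma rIn_smul (M : X.Modules) (V : Y.Opens) (r : Γ(X, g ''ᵁ V)) (x : Γ(M, g ''ᵁ V)) :
    rIn g M V (r • x) = (g.appIso V).hom r • rIn g M V x := by
  have e : (g.appIso V).inv ((g.appIso V).hom r) = r := by
    rw [← CommRingCat.comp_apply, Iso.hom_inv_id]; rfl
  have h1 : (g.appIso V).hom r • rIn g M V x =
      rIn g M V ((g.appIso V).inv ((g.appIso V).hom r) • x) := rfl
  rw [h1, e]

lemma rIn_symm_smul (M : X.Modules) (V : Y.Opens) (r : Γ(Y, V)) (y : Γ(M.restrict g, V)) :
    (rIn g M V).symm (r • y) = (g.appIso V).inv r • (rIn g M V).symm y := rfl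

/-- Naturality of a morphism between restricted modules, phrased on the ambient scheme. -/
lemma restrict_hom_app_res (f : M.restrict g ⟶ N.restrict g) {V' V : Y.Opens} (h : V' ≤ V)
    (x : Γ(M, g ''ᵁ V)) :
    res N (g.image_mono h) ((rIn g N V).symm (f.app V (rIn g M V x))) =
      (rIn g N V').symm (f.app V' (rIn g M V' (res M (g.image_mono h) x))) := by
  rw [rIn_res g M h, ← hom_app_res f h, rIn_symm_res g N h]

/-- Linearity of a morphism between restricted modules, phrased on the ambient scheme. -/
lemma restrict_hom_app_smul (f : M.restrict g ⟶ N.restrict g) (V : Y.Opens)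
    (r : Γ(X, g ''ᵁ V)) (x : Γ(M, g ''ᵁ V)) :
    (rIn g N V).symm (f.app V (rIn g M V (r • x))) =
      r • (rIn g N V).symm (f.app V (rIn g M V x)) := by
  rw [rIn_smul, Scheme.Modules.Hom.app_smul, rIn_symm_smul]
  congr 1
  rw [← CommRingCat.comp_apply, Iso.hom_inv_id]; rfl

namespace LocalHom

/-- A local morphism over the range of an open immersion `g` gives a morphism between the
restrictions along `g`. -/
noncomputable def toRestrict (L : LocalHom M N g.opensRange) : M.restrict g ⟶ N.restrict g :=
  ⟨PresheafOfModules.homMk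
    { app := fun V => AddCommGrpCat.ofHom (L.app (g ''ᵁ V.unop) (g.image_le_opensRange _))
      naturality := by
        intro V V' f
        ext x
        exact (L.app_res (g ''ᵁ V'.unop) (g ''ᵁ V.unop) (g.image_le_opensRange _)
          (g.image_mono (leOfHom f.unop)) x).symm }
    (by
      intro V r m
      exact L.app_smul (g ''ᵁ V.unop) (g.image_le_opensRange _) ((g.appIso V.unop).inv r) m)⟩

lemma toRestrict_app (L : LocalHom M N g.opensRange) (V : Y.Opens) (y : Γ(M.restrict g, V)) :
    (L.toRestrict g).app V y =
      rIn g N V (L.app (g ''ᵁ V) (g.image_le_opensRange _) ((rIn g M V).symm y)) := rfl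

lemma le_image_preimage {W : X.Opens} (hW : W ≤ g.opensRange) : W ≤ g ''ᵁ g ⁻¹ᵁ W := by
  rw [g.image_preimage_eq_opensRange_inf]
  exact le_inf hW le_rfl

lemma image_preimage_le' (W : X.Opens) : g ''ᵁ g ⁻¹ᵁ W ≤ W := by
  rw [g.image_preimage_eq_opensRange_inf]
  exact inf_le_right

/-- A morphism between the restrictions along an open immersion `g` gives a local morphism over
the range of `g`. -/
noncomputable def ofRestrict (f : M.restrict g ⟶ N.restrict g) : LocalHom M N g.opensRange where
  app W hW := (res N (le_image_preimage g hW)).comp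
    ((rIn g N (g ⁻¹ᵁ W)).symm.toAddMonoidHom.comp
      ((f.app (g ⁻¹ᵁ W)).hom.comp
        ((rIn g M (g ⁻¹ᵁ W)).toAddMonoidHom.comp (res M (image_preimage_le' g W)))))
  app_res W' W hW h x := by
    simp only [AddMonoidHom.comp_apply, AddEquiv.coe_toAddMonoidHom]
    have h1 : g ⁻¹ᵁ W' ≤ g ⁻¹ᵁ W := g.preimage_mono h
    have := restrict_hom_app_res g f h1 (res M (image_preimage_le' g W) x)
    rw [res_res] at this
    rw [res_res, res_res]
    erw [← this]
    rw [res_res]
  app_smul W hW r x := by
    simp only [AddMonoidHom.comp_apply, AddEquiv.coe_toAddMonoidHom]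
    rw [res_smul]
    erw [restrict_hom_app_smul g f (g ⁻¹ᵁ W) (resO X (image_preimage_le' g W) r)
      (res M (image_preimage_le' g W) x)]
    rw [res_smul, resO_resO, resO_self]

lemma ofRestrict_app (f : M.restrict g ⟶ N.restrict g) (W : X.Opens) (hW : W ≤ g.opensRange)
    (x : Γ(M, W)) : (ofRestrict g f).app W hW x =
      res N (le_image_preimage g hW) ((rIn g N (g ⁻¹ᵁ W)).symm
        (f.app (g ⁻¹ᵁ W) (rIn g M (g ⁻¹ᵁ W) (res M (image_preimage_le' g W) x)))) := rfl

@[simp] lemma ofRestrict_toRestrict (L : LocalHom M N g.opensRange) :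
    ofRestrict g (L.toRestrict g) = L := by
  ext W hW x
  rw [ofRestrict_app, toRestrict_app, AddEquiv.symm_apply_apply, AddEquiv.symm_apply_apply,
    L.app_res, res_res, res_self]

@[simp] lemma toRestrict_ofRestrict (f : M.restrict g ⟶ N.restrict g) :
    (ofRestrict g f).toRestrict g = f := by
  apply Scheme.Modules.hom_ext
  intro V
  ext y
  rw [toRestrict_app, ofRestrict_app]
  have hV : g ⁻¹ᵁ g ''ᵁ V ≤ V := le_of_eq (g.preimage_image_eq V)
  have := restrict_hom_app_res g f hV ((rIn g M V).symm y)
  rw [← this, res_res, res_self, AddEquiv.apply_symm_apply, AddEquiv.apply_symm_apply]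

/-- Local morphisms over the range of an open immersion `g` are the same as morphisms between
the restrictions along `g`. -/
noncomputable def restrictEquiv : LocalHom M N g.opensRange ≃ (M.restrict g ⟶ N.restrict g) where
  toFun L := L.toRestrict g
  invFun f := ofRestrict g f
  left_inv L := ofRestrict_toRestrict g L
  right_inv f := toRestrict_ofRestrict g f

@[simp] lemma toRestrict_id : (LocalHom.id M g.opensRange).toRestrict g = 𝟙 (M.restrict g) := by
  apply Scheme.Modules.hom_ext
  intro V
  ext x
  rfl

@[simp] lemma toRestrict_comp (L : LocalHom M N g.opensRange) (L' : LocalHom N P g.opensRange) :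
    (L.comp L').toRestrict g = L.toRestrict g ≫ L'.toRestrict g := by
  apply Scheme.Modules.hom_ext
  intro V
  ext x
  rfl

@[simp] lemma ofRestrict_id : ofRestrict g (𝟙 (M.restrict g)) = LocalHom.id M g.opensRange := by
  rw [← toRestrict_id, ofRestrict_toRestrict]

@[simp] lemma ofRestrict_comp (f : M.restrict g ⟶ N.restrict g) (f' : N.restrict g ⟶ P.restrict g) :
    ofRestrict g (f ≫ f') = (ofRestrict g f).comp (ofRestrict g f') := by
  apply (restrictEquiv g).injective
  change (ofRestrict g (f ≫ f')).toRestrict g =
    ((ofRestrict g f).comp (ofRestrict g f')).toRestrict g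
  rw [toRestrict_comp, toRestrict_ofRestrict, toRestrict_ofRestrict, toRestrict_ofRestrict]

/-- The restriction of a global morphism corresponds to the induced local morphism. -/
@[simp] lemma toRestrict_ofHom (f : M ⟶ N) :
    (ofHom f g.opensRange).toRestrict g = (Scheme.Modules.restrictFunctor g).map f := by
  apply Scheme.Modules.hom_ext
  intro V
  ext x
  rfl

@[simp] lemma ofRestrict_map (f : M ⟶ N) :
    ofRestrict g ((Scheme.Modules.restrictFunctor g).map f) = ofHom f g.opensRange := by
  rw [← toRestrict_ofHom, ofRestrict_toRestrict]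

end LocalHom

end Fermat.Agent.Jac.ModGlue88
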