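/-
M1a (JAC programme, S25): gluing of morphisms between restrictions to the members of an open
cover, in terms of Mathlib's `Scheme.Modules.restrictFunctor (U i).ι`.
-/
import Fermat.Agent.Jac.ModGlue88.Restrict

set_option autoImplicit false

universe u

open CategoryTheory AlgebraicGeometry TopologicalSpace Opposite

namespace Fermat.Agent.Jac.ModGlue88

namespace LocalHom

section General

variable {X Y : Scheme.{u}} (g : Y ⟶ X) [IsOpenImmersion g] {M N P : X.Modules}

/-- Evaluation of `ofRestrict g f` on an open of `X` which is the image of an open of `Y`. -/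
lemma ofRestrict_app_of_eq (f : M.restrict g ⟶ N.restrict g) (V : Y.Opens) (W : X.Opens)
    (h1 : W ≤ g ''ᵁ V) (h2 : g ''ᵁ V ≤ W) (x : Γ(M, W)) :
    (ofRestrict g f).app W (h1.trans (g.image_le_opensRange V)) x =
      res N h1 ((rIn g N V).symm (f.app V (rIn g M V (res M h2 x)))) := by
  have e : (ofRestrict g f).app W (h1.trans (g.image_le_opensRange V)) x =
      res N h1 ((ofRestrict g f).app (g ''ᵁ V) (g.image_le_opensRange V) (res M h2 x)) := by
    rw [(ofRestrict g f).app_res, res_res, res_self]
  rw [e]
  have := toRestrict_app g (ofRestrict g f) V (rIn g M V (res M h2 x))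
  rw [toRestrict_ofRestrict, AddEquiv.symm_apply_apply] at this
  rw [this, AddEquiv.symm_apply_apply]

end General

section Opens

variable {X : Scheme.{u}} {M N P : X.Modules}

/-- A local morphism over the open `U` as a morphism between the restrictions to `U`. -/
noncomputable def toRestrictι (U : X.Opens) (L : LocalHom M N U) :
    M.restrict U.ι ⟶ N.restrict U.ι :=
  (L.restrict (le_of_eq U.opensRange_ι)).toRestrict U.ι

/-- A morphism between the restrictions to the open `U` as a local morphism over `U`. -/
noncomputable def ofRestrictι (U : X.Opens) (f : M.restrict U.ι ⟶ N.restrict U.ι) :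
    LocalHom M N U :=
  (ofRestrict U.ι f).restrict (le_of_eq U.opensRange_ι.symm)

@[simp] lemma ofRestrictι_toRestrictι (U : X.Opens) (L : LocalHom M N U) :
    ofRestrictι U (toRestrictι U L) = L := by
  unfold ofRestrictι toRestrictι
  rw [ofRestrict_toRestrict, restrict_restrict]
  ext W hW x
  rfl

@[simp] lemma toRestrictι_ofRestrictι (U : X.Opens) (f : M.restrict U.ι ⟶ N.restrict U.ι) :
    toRestrictι U (ofRestrictι U f) = f := by
  unfold ofRestrictι toRestrictι
  rw [restrict_restrict]
  have : (ofRestrict U.ι f).restrict (le_refl _) = ofRestrict U.ι f := by ext; rfl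
  rw [this, toRestrict_ofRestrict]

/-- Local morphisms over `U` are the same as morphisms between the restrictions to `U`. -/
noncomputable def restrictιEquiv (U : X.Opens) :
    LocalHom M N U ≃ (M.restrict U.ι ⟶ N.restrict U.ι) where
  toFun L := toRestrictι U L
  invFun f := ofRestrictι U f
  left_inv L := ofRestrictι_toRestrictι U L
  right_inv f := toRestrictι_ofRestrictι U f

@[simp] lemma toRestrictι_id (U : X.Opens) :
    toRestrictι U (LocalHom.id M U) = 𝟙 (M.restrict U.ι) := by
  unfold toRestrictι
  rw [restrict_id, toRestrict_id]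

@[simp] lemma toRestrictι_comp (U : X.Opens) (L : LocalHom M N U) (L' : LocalHom N P U) :
    toRestrictι U (L.comp L') = toRestrictι U L ≫ toRestrictι U L' := by
  unfold toRestrictι
  rw [restrict_comp, toRestrict_comp]

@[simp] lemma ofRestrictι_id (U : X.Opens) :
    ofRestrictι U (𝟙 (M.restrict U.ι)) = LocalHom.id M U := by
  rw [← toRestrictι_id, ofRestrictι_toRestrictι]

@[simp] lemma ofRestrictι_comp (U : X.Opens) (f : M.restrict U.ι ⟶ N.restrict U.ι)
    (f' : N.restrict U.ι ⟶ P.restrict U.ι) :
    ofRestrictι U (f ≫ f') = (ofRestrictι U f).comp (ofRestrictι U f') := by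
  apply (restrictιEquiv U).injective
  change toRestrictι U (ofRestrictι U (f ≫ f')) =
    toRestrictι U ((ofRestrictι U f).comp (ofRestrictι U f'))
  rw [toRestrictι_comp, toRestrictι_ofRestrictι, toRestrictι_ofRestrictι,
    toRestrictι_ofRestrictι]

@[simp] lemma toRestrictι_ofHom (U : X.Opens) (f : M ⟶ N) :
    toRestrictι U (ofHom f U) = (Scheme.Modules.restrictFunctor U.ι).map f := by
  unfold toRestrictι
  rw [ofHom_restrict, toRestrict_ofHom]

@[simp] lemma ofRestrictι_map (U : X.Opens) (f : M ⟶ N) :
    ofRestrictι U ((Scheme.Modules.restrictFunctor U.ι).map f) = ofHom f U := by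
  rw [← toRestrictι_ofHom, ofRestrictι_toRestrictι]

/-- Evaluation of `toRestrictι`. -/
lemma toRestrictι_app (U : X.Opens) (L : LocalHom M N U) (V : U.toScheme.Opens)
    (y : Γ(M.restrict U.ι, V)) :
    (toRestrictι U L).app V y =
      rIn U.ι N V (L.app (U.ι ''ᵁ V) (U.ι_image_le V) ((rIn U.ι M V).symm y)) := rfl

end Opens

end LocalHom

end Fermat.Agent.Jac.ModGlue88
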