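/-
M1a (JAC programme, S25): gluing of morphisms between restrictions to the members of an open
cover, stated with Mathlib's `Scheme.Modules.restrictFunctor (U i).ι`; compatibility on overlaps
is expressed with `resHom` (restriction of a morphism `M|U ⟶ N|U` to a smaller open `U' ≤ U`,
through `restrictFunctorComp` and `restrictFunctorCongr`).
-/
import Fermat.Agent.Jac.ModGlue88.RestrictOpen

set_option autoImplicit false

universe u

open CategoryTheory AlgebraicGeometry TopologicalSpace Opposite

namespace Fermat.Agent.Jac.ModGlue88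

namespace LocalHom

variable {X : Scheme.{u}} {M N P : X.Modules}

/-- Restriction of a morphism between restrictions to a smaller open. -/
noncomputable def resHom {U' U : X.Opens} (h : U' ≤ U) (f : M.restrict U.ι ⟶ N.restrict U.ι) :
    M.restrict U'.ι ⟶ N.restrict U'.ι :=
  (Scheme.Modules.restrictFunctorCongr (X.homOfLE_ι h)).inv.app M ≫
  (Scheme.Modules.restrictFunctorComp (X.homOfLE h) U.ι).hom.app M ≫
  (Scheme.Modules.restrictFunctor (X.homOfLE h)).map f ≫
  (Scheme.Modules.restrictFunctorComp (X.homOfLE h) U.ι).inv.app N ≫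
  (Scheme.Modules.restrictFunctorCongr (X.homOfLE_ι h)).hom.app N

lemma comp_image_homOfLE {U' U : X.Opens} (h : U' ≤ U) (V' : U'.toScheme.Opens) :
    (X.homOfLE h ≫ U.ι) ''ᵁ V' = U'.ι ''ᵁ V' := by
  simp only [Scheme.homOfLE_ι]

lemma image_homOfLE_image {U' U : X.Opens} (h : U' ≤ U) (V' : U'.toScheme.Opens) :
    U.ι ''ᵁ (X.homOfLE h ''ᵁ V') = U'.ι ''ᵁ V' := by
  rw [← Scheme.Hom.comp_image, comp_image_homOfLE]

lemma resHom_app_aux {U' U : X.Opens} (h : U' ≤ U) (f : M.restrict U.ι ⟶ N.restrict U.ι)
    (V' : U'.toScheme.Opens) (y : Γ(M.restrict U'.ι, V')) :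
    (resHom h f).app V' y = rIn U'.ι N V'
      (res N (le_of_eq (comp_image_homOfLE h V').symm)
      (res N (le_of_eq (Scheme.Hom.comp_image (X.homOfLE h) U.ι V'))
      ((rIn U.ι N (X.homOfLE h ''ᵁ V')).symm
      (f.app (X.homOfLE h ''ᵁ V') (rIn U.ι M (X.homOfLE h ''ᵁ V')
        (res M (le_of_eq (Scheme.Hom.comp_image (X.homOfLE h) U.ι V').symm)
        (res M (le_of_eq (comp_image_homOfLE h V')) ((rIn U'.ι M V').symm y)))))))) := rfl

lemma resHom_app {U' U : X.Opens} (h : U' ≤ U) (f : M.restrict U.ι ⟶ N.restrict U.ι)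
    (V' : U'.toScheme.Opens) (y : Γ(M.restrict U'.ι, V')) :
    (resHom h f).app V' y = rIn U'.ι N V'
      (res N (le_of_eq (image_homOfLE_image h V').symm)
      ((rIn U.ι N (X.homOfLE h ''ᵁ V')).symm
      (f.app (X.homOfLE h ''ᵁ V') (rIn U.ι M (X.homOfLE h ''ᵁ V')
        (res M (le_of_eq (image_homOfLE_image h V')) ((rIn U'.ι M V').symm y)))))) := by
  rw [resHom_app_aux, res_res, res_res]

/-- `toRestrictι` is compatible with restriction to a smaller open. -/
lemma toRestrictι_restrict {U' U : X.Opens} (h : U' ≤ U) (L : LocalHom M N U) :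
    toRestrictι U' (L.restrict h) = resHom h (toRestrictι U L) := by
  apply Scheme.Modules.hom_ext
  intro V'
  ext y
  rw [resHom_app, toRestrictι_app, toRestrictι_app, AddEquiv.symm_apply_apply,
    AddEquiv.symm_apply_apply, L.app_res, res_res, res_self]
  rfl

/-- `ofRestrictι` is compatible with restriction to a smaller open. -/
lemma ofRestrictι_resHom {U' U : X.Opens} (h : U' ≤ U) (f : M.restrict U.ι ⟶ N.restrict U.ι) :
    ofRestrictι U' (resHom h f) = (ofRestrictι U f).restrict h := by
  have := toRestrictι_restrict h (ofRestrictι U f)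
  rw [toRestrictι_ofRestrictι] at this
  rw [← this, ofRestrictι_toRestrictι]

@[simp] lemma resHom_id {U' U : X.Opens} (h : U' ≤ U) :
    resHom h (𝟙 (M.restrict U.ι)) = 𝟙 (M.restrict U'.ι) := by
  rw [← toRestrictι_id, ← toRestrictι_restrict, restrict_id, toRestrictι_id]

lemma resHom_comp {U' U : X.Opens} (h : U' ≤ U) (f : M.restrict U.ι ⟶ N.restrict U.ι)
    (f' : N.restrict U.ι ⟶ P.restrict U.ι) :
    resHom h (f ≫ f') = resHom h f ≫ resHom h f' := by
  unfold resHom
  simp

lemma resHom_map {U' U : X.Opens} (h : U' ≤ U) (f : M ⟶ N) :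
    resHom h ((Scheme.Modules.restrictFunctor U.ι).map f) =
      (Scheme.Modules.restrictFunctor U'.ι).map f := by
  rw [← toRestrictι_ofHom, ← toRestrictι_restrict, ofHom_restrict, toRestrictι_ofHom]

section Cover

variable {κ : Type*} (U : κ → X.Opens) (hcover : iSup U = ⊤)

include hcover in
/-- Two morphisms of modules whose restrictions to the members of an open cover agree are
equal. -/
theorem hom_ext_of_cover_restrict (f g : M ⟶ N)
    (h : ∀ i, (Scheme.Modules.restrictFunctor (U i).ι).map f =
      (Scheme.Modules.restrictFunctor (U i).ι).map g) : f = g := by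
  refine hom_ext_of_cover U hcover f g (fun i => ?_)
  rw [← ofRestrictι_map, ← ofRestrictι_map, h i]

include hcover in
/-- A family of morphisms between the restrictions of two modules to the members of an open
cover, compatible on the pairwise intersections, glues to a unique global morphism. -/
theorem existsUnique_hom_of_cover_restrict
    (f : ∀ i, M.restrict (U i).ι ⟶ N.restrict (U i).ι)
    (hf : ∀ i j, resHom (inf_le_left : U i ⊓ U j ≤ U i) (f i) =
      resHom (inf_le_right : U i ⊓ U j ≤ U j) (f j)) :
    ∃! f₀ : M ⟶ N, ∀ i, (Scheme.Modules.restrictFunctor (U i).ι).map f₀ = f i := by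
  obtain ⟨f₀, hf₀, huniq⟩ := existsUnique_hom_of_cover U hcover
    (fun i => ofRestrictι (U i) (f i)) (fun i j => by
      rw [← ofRestrictι_resHom, ← ofRestrictι_resHom, hf i j])
  refine ⟨f₀, fun i => ?_, fun g hg => huniq g (fun i => ?_)⟩
  · rw [← toRestrictι_ofHom, hf₀ i, toRestrictι_ofRestrictι]
  · rw [← hg i, ofRestrictι_map]

include hcover in
/-- A morphism of modules whose restrictions to the members of an open cover are isomorphisms
is an isomorphism. -/
theorem isIso_of_cover_restrict (f : M ⟶ N)
    (h : ∀ i, IsIso ((Scheme.Modules.restrictFunctor (U i).ι).map f)) : IsIso f := by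
  refine isIso_of_cover_localInv U hcover f
    (fun i => ofRestrictι (U i) (@inv _ _ _ _ _ (h i))) (fun i => ?_) (fun i => ?_)
  · have := h i
    rw [← ofRestrictι_map, ← ofRestrictι_comp, IsIso.hom_inv_id, ofRestrictι_id]
  · have := h i
    rw [← ofRestrictι_map, ← ofRestrictι_comp, IsIso.inv_hom_id, ofRestrictι_id]

end Cover

end LocalHom

end Fermat.Agent.Jac.ModGlue88
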