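/-
M1a (JAC programme, S25): `Scheme.Modules.restrictFunctorIsoPullback` is compatible with
composition of open immersions and with equalities of morphisms.
-/
import Fermat.Agent.Jac.ModGlue88.CoverRestrict

set_option autoImplicit false

universe u

open CategoryTheory AlgebraicGeometry TopologicalSpace Opposite

namespace Fermat.Agent.Jac.ModGlue88

open Scheme.Modules

variable {X Y Z : Scheme.{u}}

/-- The unit of the restriction adjunction along a composition of open immersions. -/
lemma restrict_unit_comp (a : Z ⟶ Y) (g : Y ⟶ X) [IsOpenImmersion a]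
    [IsOpenImmersion g] (M : X.Modules) :
    (restrictAdjunction (a ≫ g)).unit.app M ≫
        (pushforward (a ≫ g)).map ((restrictFunctorComp a g).hom.app M) =
      (restrictAdjunction g).unit.app M ≫
        (pushforward g).map ((restrictAdjunction a).unit.app (M.restrict g)) ≫
          (pushforwardComp a g).hom.app ((M.restrict g).restrict a) := by
  apply Scheme.Modules.hom_ext
  intro W
  ext x
  have h1 : g ''ᵁ (a ''ᵁ ((a ≫ g) ⁻¹ᵁ W)) ≤ (a ≫ g) ''ᵁ ((a ≫ g) ⁻¹ᵁ W) :=
    le_of_eq (Scheme.Hom.comp_image a g _).symm
  have h2 : (a ≫ g) ''ᵁ ((a ≫ g) ⁻¹ᵁ W) ≤ W := (a ≫ g).image_preimage_le W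
  have h3 : g ''ᵁ (g ⁻¹ᵁ W) ≤ W := g.image_preimage_le W
  have h4 : a ''ᵁ (a ⁻¹ᵁ (g ⁻¹ᵁ W)) ≤ g ⁻¹ᵁ W := a.image_preimage_le _
  change res M h1 (res M h2 x) = res M (g.image_mono h4) (res M h3 x)
  rw [res_res, res_res]
  rfl

/-- The unit of the pullback adjunction along a composition. -/
lemma pullback_unit_comp (a : Z ⟶ Y) (g : Y ⟶ X) (M : X.Modules) :
    (pullbackPushforwardAdjunction (a ≫ g)).unit.app M ≫
        (pushforward (a ≫ g)).map ((pullbackComp a g).inv.app M) =
      (pullbackPushforwardAdjunction g).unit.app M ≫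
        (pushforward g).map ((pullbackPushforwardAdjunction a).unit.app ((pullback g).obj M)) ≫
          (pushforwardComp a g).hom.app ((pullback a).obj ((pullback g).obj M)) := by
  have h := unit_conjugateEquiv
    ((pullbackPushforwardAdjunction g).comp (pullbackPushforwardAdjunction a))
    (pullbackPushforwardAdjunction (a ≫ g)) (pullbackComp a g).inv M
  rw [conjugateEquiv_pullbackComp_inv] at h
  rw [← h, Adjunction.comp_unit_app, Category.assoc]
  rfl

/-- `restrictFunctorIsoPullback` is compatible with composition of open immersions. -/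
theorem restrictFunctorIsoPullback_comp (a : Z ⟶ Y) (g : Y ⟶ X)
    [IsOpenImmersion a] [IsOpenImmersion g] (M : X.Modules) :
    (restrictFunctorIsoPullback (a ≫ g)).hom.app M ≫ (pullbackComp a g).inv.app M =
      (restrictFunctorComp a g).hom.app M ≫
        (restrictFunctor a).map ((restrictFunctorIsoPullback g).hom.app M) ≫
          (restrictFunctorIsoPullback a).hom.app ((pullback g).obj M) := by
  apply ((restrictAdjunction (a ≫ g)).homEquiv M _).injective
  rw [Adjunction.homEquiv_unit, Adjunction.homEquiv_unit, Functor.map_comp, Functor.map_comp,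
    Functor.map_comp]
  have e1 : (restrictAdjunction (a ≫ g)).unit.app M ≫
      (pushforward (a ≫ g)).map ((restrictFunctorIsoPullback (a ≫ g)).hom.app M) =
      (pullbackPushforwardAdjunction (a ≫ g)).unit.app M :=
    Adjunction.unit_leftAdjointUniq_hom_app _ _ M
  rw [← Category.assoc, e1, pullback_unit_comp]
  rw [← Category.assoc ((restrictAdjunction (a ≫ g)).unit.app M), restrict_unit_comp]
  simp only [Category.assoc]
  have n1 := (pushforwardComp a g).hom.naturality
    ((restrictFunctor a).map ((restrictFunctorIsoPullback g).hom.app M))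
  have n2 := (pushforwardComp a g).hom.naturality
    ((restrictFunctorIsoPullback a).hom.app ((pullback g).obj M))
  rw [← reassoc_of% n1, ← n2]
  have n3 := (restrictAdjunction a).unit.naturality ((restrictFunctorIsoPullback g).hom.app M)
  simp only [Functor.comp_map, Functor.id_map, Functor.comp_obj, Functor.id_obj] at n3 ⊢
  rw [← Functor.map_comp_assoc, ← n3, Functor.map_comp_assoc]
  have e3 : (restrictAdjunction g).unit.app M ≫
      (pushforward g).map ((restrictFunctorIsoPullback g).hom.app M) =
      (pullbackPushforwardAdjunction g).unit.app M :=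
    Adjunction.unit_leftAdjointUniq_hom_app _ _ M
  have e4 : (restrictAdjunction a).unit.app ((pullback g).obj M) ≫
      (pushforward a).map ((restrictFunctorIsoPullback a).hom.app ((pullback g).obj M)) =
      (pullbackPushforwardAdjunction a).unit.app ((pullback g).obj M) :=
    Adjunction.unit_leftAdjointUniq_hom_app _ _ _
  rw [← reassoc_of% e3, ← e4]
  simp only [Functor.map_comp, Category.assoc]

lemma restrictFunctorCongr_rfl_hom_app (g : Y ⟶ X) [IsOpenImmersion g] (M : X.Modules) :
    (restrictFunctorCongr (rfl : g = g)).hom.app M = 𝟙 _ := by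
  apply Scheme.Modules.hom_ext
  intro W
  ext x
  exact res_self M (g ''ᵁ W) x

lemma pullbackCongr_rfl_hom_app (g : Y ⟶ X) (M : X.Modules) :
    (pullbackCongr (rfl : g = g)).hom.app M = 𝟙 _ := by
  simp [pullbackCongr]

/-- `restrictFunctorIsoPullback` is compatible with equalities of morphisms. -/
lemma restrictFunctorIsoPullback_congr {g g' : Y ⟶ X} [IsOpenImmersion g] [IsOpenImmersion g']
    (e : g = g') (M : X.Modules) :
    (restrictFunctorCongr e).hom.app M ≫ (restrictFunctorIsoPullback g').hom.app M =
      (restrictFunctorIsoPullback g).hom.app M ≫ (pullbackCongr e).hom.app M := by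
  subst e
  rw [restrictFunctorCongr_rfl_hom_app, pullbackCongr_rfl_hom_app, Category.id_comp,
    Category.comp_id]

section Psi

variable (a : Z ⟶ Y) (g : Y ⟶ X) (g' : Z ⟶ X) [IsOpenImmersion a] [IsOpenImmersion g]
  [IsOpenImmersion g'] (e : a ≫ g = g')

/-- Comparison of the restriction along `g' = a ≫ g` with the iterated pullback, through the
pullback functors. -/
noncomputable def psiPull (M : X.Modules) :
    M.restrict g' ≅ (pullback a).obj ((pullback g).obj M) :=
  (restrictFunctorIsoPullback g').app M ≪≫ ((pullbackCongr e).app M).symm ≪≫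
    ((pullbackComp a g).app M).symm

/-- Comparison of the restriction along `g' = a ≫ g` with the iterated pullback, through the
restriction functors. -/
noncomputable def psiRes (M : X.Modules) :
    M.restrict g' ≅ (pullback a).obj ((pullback g).obj M) :=
  ((restrictFunctorCongr e).app M).symm ≪≫ (restrictFunctorComp a g).app M ≪≫
    (restrictFunctor a).mapIso ((restrictFunctorIsoPullback g).app M) ≪≫
      (restrictFunctorIsoPullback a).app ((pullback g).obj M)

lemma psiPull_eq_psiRes (M : X.Modules) : psiPull a g g' e M = psiRes a g g' e M := by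
  apply Iso.ext
  subst e
  simp only [psiPull, psiRes, Iso.trans_hom, Iso.symm_hom, Iso.app_hom, Iso.app_inv,
    Functor.mapIso_hom]
  have h1 : (pullbackCongr (rfl : a ≫ g = a ≫ g)).inv.app M = 𝟙 _ := by
    rw [← cancel_epi ((pullbackCongr (rfl : a ≫ g = a ≫ g)).hom.app M), Iso.hom_inv_id_app,
      pullbackCongr_rfl_hom_app, Category.comp_id]
  have h2 : (restrictFunctorCongr (rfl : a ≫ g = a ≫ g)).inv.app M = 𝟙 _ := by
    rw [← cancel_epi ((restrictFunctorCongr (rfl : a ≫ g = a ≫ g)).hom.app M),
      Iso.hom_inv_id_app, restrictFunctorCongr_rfl_hom_app, Category.comp_id]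
  rw [h1, h2, Category.id_comp, Category.id_comp]
  exact restrictFunctorIsoPullback_comp a g M

end Psi

end Fermat.Agent.Jac.ModGlue88
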