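/-
M1a (JAC programme, S25): gluing of morphisms of modules on an open cover, stated with
`Scheme.Modules.pullback (U i).ι`.
-/
import Fermat.Agent.Jac.ModGlue88.PullbackCoh

set_option autoImplicit false

universe u

open CategoryTheory AlgebraicGeometry TopologicalSpace Opposite

namespace Fermat.Agent.Jac.ModGlue88

open Scheme.Modules

variable {X Y Z : Scheme.{u}} {M N P : X.Modules}

section Conj

variable (g : Y ⟶ X) [IsOpenImmersion g]

/-- Transport a morphism between pullbacks along an open immersion to a morphism between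
restrictions. -/
noncomputable def ofPullbackHom (f : (pullback g).obj M ⟶ (pullback g).obj N) :
    M.restrict g ⟶ N.restrict g :=
  (restrictFunctorIsoPullback g).hom.app M ≫ f ≫ (restrictFunctorIsoPullback g).inv.app N

/-- Transport a morphism between restrictions along an open immersion to a morphism between
pullbacks. -/
noncomputable def toPullbackHom (f : M.restrict g ⟶ N.restrict g) :
    (pullback g).obj M ⟶ (pullback g).obj N :=
  (restrictFunctorIsoPullback g).inv.app M ≫ f ≫ (restrictFunctorIsoPullback g).hom.app N

@[simp] lemma ofPullbackHom_toPullbackHom (f : M.restrict g ⟶ N.restrict g) :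
    ofPullbackHom g (toPullbackHom g f) = f := by
  simp [ofPullbackHom, toPullbackHom]

@[simp] lemma toPullbackHom_ofPullbackHom (f : (pullback g).obj M ⟶ (pullback g).obj N) :
    toPullbackHom g (ofPullbackHom g f) = f := by
  simp [ofPullbackHom, toPullbackHom]

/-- Morphisms between pullbacks along an open immersion are the same as morphisms between
restrictions. -/
noncomputable def pullbackHomEquiv :
    ((pullback g).obj M ⟶ (pullback g).obj N) ≃ (M.restrict g ⟶ N.restrict g) where
  toFun := ofPullbackHom g
  invFun := toPullbackHom g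
  left_inv := toPullbackHom_ofPullbackHom g
  right_inv := ofPullbackHom_toPullbackHom g

@[simp] lemma ofPullbackHom_id : ofPullbackHom g (𝟙 ((pullback g).obj M)) = 𝟙 (M.restrict g) := by
  simp [ofPullbackHom]

@[simp] lemma ofPullbackHom_comp (f : (pullback g).obj M ⟶ (pullback g).obj N)
    (f' : (pullback g).obj N ⟶ (pullback g).obj P) :
    ofPullbackHom g (f ≫ f') = ofPullbackHom g f ≫ ofPullbackHom g f' := by
  simp [ofPullbackHom]

@[simp] lemma ofPullbackHom_map (f : M ⟶ N) :
    ofPullbackHom g ((pullback g).map f) = (restrictFunctor g).map f := by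
  unfold ofPullbackHom
  rw [← Category.assoc, ← (restrictFunctorIsoPullback g).hom.naturality f, Category.assoc,
    Iso.hom_inv_id_app, Category.comp_id]

lemma isIso_ofPullbackHom_iff (f : (pullback g).obj M ⟶ (pullback g).obj N) :
    IsIso (ofPullbackHom g f) ↔ IsIso f := by
  unfold ofPullbackHom
  constructor
  · intro h
    have h2 : IsIso (f ≫ (restrictFunctorIsoPullback g).inv.app N) :=
      IsIso.of_isIso_comp_left ((restrictFunctorIsoPullback g).hom.app M) _
    exact IsIso.of_isIso_comp_right f ((restrictFunctorIsoPullback g).inv.app N)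
  · intro h
    infer_instance

end Conj

section Res

/-- Restriction of a morphism between the pullbacks to an open `U` to a smaller open `U'`, through
`pullbackComp` and `pullbackCongr`. -/
noncomputable def pullbackResHom {U' U : X.Opens} (h : U' ≤ U)
    (f : (pullback U.ι).obj M ⟶ (pullback U.ι).obj N) :
    (pullback U'.ι).obj M ⟶ (pullback U'.ι).obj N :=
  (pullbackCongr (X.homOfLE_ι h)).inv.app M ≫ (pullbackComp (X.homOfLE h) U.ι).inv.app M ≫
    (pullback (X.homOfLE h)).map f ≫ (pullbackComp (X.homOfLE h) U.ι).hom.app N ≫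
      (pullbackCongr (X.homOfLE_ι h)).hom.app N

lemma ofPullbackHom_pullbackResHom_aux {U' U : X.Opens} (h : U' ≤ U)
    (f : (pullback U.ι).obj M ⟶ (pullback U.ι).obj N) :
    ofPullbackHom U'.ι (pullbackResHom h f) =
      (psiPull (X.homOfLE h) U.ι U'.ι (X.homOfLE_ι h) M).hom ≫ (pullback (X.homOfLE h)).map f ≫
        (psiPull (X.homOfLE h) U.ι U'.ι (X.homOfLE_ι h) N).inv := by
  simp [ofPullbackHom, pullbackResHom, psiPull]

lemma resHom_ofPullbackHom_aux {U' U : X.Opens} (h : U' ≤ U)
    (f : (pullback U.ι).obj M ⟶ (pullback U.ι).obj N) :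
    LocalHom.resHom h (ofPullbackHom U.ι f) =
      (psiRes (X.homOfLE h) U.ι U'.ι (X.homOfLE_ι h) M).hom ≫ (pullback (X.homOfLE h)).map f ≫
        (psiRes (X.homOfLE h) U.ι U'.ι (X.homOfLE_ι h) N).inv := by
  have nat := (restrictFunctorIsoPullback (X.homOfLE h)).hom.naturality f
  have nat' : (restrictFunctor (X.homOfLE h)).map f =
      (restrictFunctorIsoPullback (X.homOfLE h)).hom.app _ ≫ (pullback (X.homOfLE h)).map f ≫
        (restrictFunctorIsoPullback (X.homOfLE h)).inv.app _ := by
    rw [← Category.assoc, ← nat, Category.assoc, Iso.hom_inv_id_app, Category.comp_id]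
  simp only [LocalHom.resHom, ofPullbackHom, psiRes, Functor.map_comp, nat', Iso.trans_hom,
    Iso.trans_inv, Iso.symm_hom, Iso.symm_inv, Iso.app_hom, Iso.app_inv, Functor.mapIso_hom,
    Functor.mapIso_inv, Category.assoc]

/-- `ofPullbackHom` is compatible with restriction to a smaller open. -/
theorem ofPullbackHom_pullbackResHom {U' U : X.Opens} (h : U' ≤ U)
    (f : (pullback U.ι).obj M ⟶ (pullback U.ι).obj N) :
    ofPullbackHom U'.ι (pullbackResHom h f) = LocalHom.resHom h (ofPullbackHom U.ι f) := by
  rw [ofPullbackHom_pullbackResHom_aux, resHom_ofPullbackHom_aux, psiPull_eq_psiRes,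
    psiPull_eq_psiRes]

end Res

section Cover

variable {κ : Type*} (U : κ → X.Opens) (hcover : iSup U = ⊤)

include hcover in
/-- (M1a.i) Two morphisms of modules whose pullbacks to the members of an open cover agree are
equal. -/
theorem hom_ext_of_cover_pullback (f g : M ⟶ N)
    (h : ∀ i, (pullback (U i).ι).map f = (pullback (U i).ι).map g) : f = g := by
  refine LocalHom.hom_ext_of_cover_restrict U hcover f g (fun i => ?_)
  rw [← ofPullbackHom_map, ← ofPullbackHom_map, h i]

include hcover in
/-- (M1a.ii) A family of morphisms between the pullbacks of two modules to the members of an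
open cover, compatible on the pairwise intersections, glues to a unique global morphism. -/
theorem existsUnique_hom_of_cover_pullback
    (f : ∀ i, (pullback (U i).ι).obj M ⟶ (pullback (U i).ι).obj N)
    (hf : ∀ i j, pullbackResHom (inf_le_left : U i ⊓ U j ≤ U i) (f i) =
      pullbackResHom (inf_le_right : U i ⊓ U j ≤ U j) (f j)) :
    ∃! f₀ : M ⟶ N, ∀ i, (pullback (U i).ι).map f₀ = f i := by
  obtain ⟨f₀, hf₀, huniq⟩ := LocalHom.existsUnique_hom_of_cover_restrict U hcover
    (fun i => ofPullbackHom (U i).ι (f i)) (fun i j => by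
      rw [← ofPullbackHom_pullbackResHom, ← ofPullbackHom_pullbackResHom, hf i j])
  refine ⟨f₀, fun i => ?_, fun g hg => huniq g (fun i => ?_)⟩
  · apply (pullbackHomEquiv (U i).ι).injective
    change ofPullbackHom (U i).ι _ = ofPullbackHom (U i).ι _
    rw [ofPullbackHom_map, hf₀ i]
  · rw [← hg i, ofPullbackHom_map]

include hcover in
/-- (M1a.iii) A morphism of modules whose pullbacks to the members of an open cover are
isomorphisms is an isomorphism. -/
theorem isIso_of_cover_pullback (f : M ⟶ N)
    (h : ∀ i, IsIso ((pullback (U i).ι).map f)) : IsIso f := by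
  refine LocalHom.isIso_of_cover_restrict U hcover f (fun i => ?_)
  rw [← ofPullbackHom_map, isIso_ofPullbackHom_iff]
  exact h i

end Cover

end Fermat.Agent.Jac.ModGlue88
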