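/-
M1 (JAC programme, S25): local isomorphisms of modules on a scheme, sectionwise.
-/
import Fermat.Agent.Jac.ModGlue88.CoverRestrict

set_option autoImplicit false

universe u

open CategoryTheory AlgebraicGeometry TopologicalSpace Opposite

namespace Fermat.Agent.Jac.ModGlue88

variable {X : Scheme.{u}}

/-- A local isomorphism `M ≅ N` over the open `U`. -/
structure LocalIso (M N : X.Modules) (U : X.Opens) where
  hom : LocalHom M N U
  inv : LocalHom N M U
  hom_inv_id : hom.comp inv = LocalHom.id M U
  inv_hom_id : inv.comp hom = LocalHom.id N U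

namespace LocalIso

variable {M N P : X.Modules} {U U' : X.Opens}

@[ext] lemma ext {α β : LocalIso M N U} (h : α.hom = β.hom) : α = β := by
  have hinv : α.inv = β.inv := by
    calc α.inv = α.inv.comp (LocalHom.id M U) := (LocalHom.comp_id _).symm
      _ = α.inv.comp (β.hom.comp β.inv) := by rw [β.hom_inv_id]
      _ = (α.inv.comp α.hom).comp β.inv := by rw [← h, LocalHom.comp_assoc]
      _ = β.inv := by rw [α.inv_hom_id, LocalHom.id_comp]
  cases α; cases β
  simp only at h hinv
  subst h; subst hinv
  rfl

/-- The identity local isomorphism. -/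
noncomputable def refl (M : X.Modules) (U : X.Opens) : LocalIso M M U where
  hom := LocalHom.id M U
  inv := LocalHom.id M U
  hom_inv_id := LocalHom.id_comp _
  inv_hom_id := LocalHom.id_comp _

/-- The inverse local isomorphism. -/
noncomputable def symm (α : LocalIso M N U) : LocalIso N M U where
  hom := α.inv
  inv := α.hom
  hom_inv_id := α.inv_hom_id
  inv_hom_id := α.hom_inv_id

/-- Composition of local isomorphisms. -/
noncomputable def trans (α : LocalIso M N U) (β : LocalIso N P U) : LocalIso M P U where
  hom := α.hom.comp β.hom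
  inv := β.inv.comp α.inv
  hom_inv_id := by
    rw [LocalHom.comp_assoc, ← LocalHom.comp_assoc β.hom, β.hom_inv_id, LocalHom.id_comp,
      α.hom_inv_id]
  inv_hom_id := by
    rw [LocalHom.comp_assoc, ← LocalHom.comp_assoc α.inv, α.inv_hom_id, LocalHom.id_comp,
      β.inv_hom_id]

/-- Restriction of a local isomorphism to a smaller open. -/
noncomputable def restrict (α : LocalIso M N U) (h : U' ≤ U) : LocalIso M N U' where
  hom := α.hom.restrict h
  inv := α.inv.restrict h
  hom_inv_id := by rw [← LocalHom.restrict_comp, α.hom_inv_id, LocalHom.restrict_id]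
  inv_hom_id := by rw [← LocalHom.restrict_comp, α.inv_hom_id, LocalHom.restrict_id]

@[simp] lemma refl_hom : (refl M U).hom = LocalHom.id M U := rfl
@[simp] lemma symm_hom (α : LocalIso M N U) : α.symm.hom = α.inv := rfl
@[simp] lemma symm_inv (α : LocalIso M N U) : α.symm.inv = α.hom := rfl
@[simp] lemma trans_hom (α : LocalIso M N U) (β : LocalIso N P U) :
    (α.trans β).hom = α.hom.comp β.hom := rfl
@[simp] lemma trans_inv (α : LocalIso M N U) (β : LocalIso N P U) :
    (α.trans β).inv = β.inv.comp α.inv := rfl
@[simp] lemma restrict_hom (α : LocalIso M N U) (h : U' ≤ U) :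
    (α.restrict h).hom = α.hom.restrict h := rfl
@[simp] lemma restrict_inv (α : LocalIso M N U) (h : U' ≤ U) :
    (α.restrict h).inv = α.inv.restrict h := rfl

lemma inv_hom_apply (α : LocalIso M N U) (W : X.Opens) (hW : W ≤ U) (x : Γ(M, W)) :
    α.inv.app W hW (α.hom.app W hW x) = x :=
  congrArg (fun L : LocalHom M M U => L.app W hW x) α.hom_inv_id

lemma hom_inv_apply (α : LocalIso M N U) (W : X.Opens) (hW : W ≤ U) (y : Γ(N, W)) :
    α.hom.app W hW (α.inv.app W hW y) = y :=
  congrArg (fun L : LocalHom N N U => L.app W hW y) α.inv_hom_id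

/-- The local isomorphism over `U` induced by a global isomorphism. -/
noncomputable def ofIso (e : M ≅ N) (U : X.Opens) : LocalIso M N U where
  hom := LocalHom.ofHom e.hom U
  inv := LocalHom.ofHom e.inv U
  hom_inv_id := by rw [← LocalHom.ofHom_comp, e.hom_inv_id, LocalHom.ofHom_id]
  inv_hom_id := by rw [← LocalHom.ofHom_comp, e.inv_hom_id, LocalHom.ofHom_id]

/-- A local isomorphism over `U` as an isomorphism between the restrictions to `U`. -/
noncomputable def toRestrictιIso (α : LocalIso M N U) : M.restrict U.ι ≅ N.restrict U.ι where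
  hom := LocalHom.toRestrictι U α.hom
  inv := LocalHom.toRestrictι U α.inv
  hom_inv_id := by rw [← LocalHom.toRestrictι_comp, α.hom_inv_id, LocalHom.toRestrictι_id]
  inv_hom_id := by rw [← LocalHom.toRestrictι_comp, α.inv_hom_id, LocalHom.toRestrictι_id]

/-- An isomorphism between the restrictions to `U` as a local isomorphism over `U`. -/
noncomputable def ofRestrictιIso (e : M.restrict U.ι ≅ N.restrict U.ι) : LocalIso M N U where
  hom := LocalHom.ofRestrictι U e.hom
  inv := LocalHom.ofRestrictι U e.inv
  hom_inv_id := by rw [← LocalHom.ofRestrictι_comp, e.hom_inv_id, LocalHom.ofRestrictι_id]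
  inv_hom_id := by rw [← LocalHom.ofRestrictι_comp, e.inv_hom_id, LocalHom.ofRestrictι_id]

/-- A local isomorphism over the range of an open immersion `g` as an isomorphism between the
restrictions along `g`. -/
noncomputable def toRestrictIso {Y : Scheme.{u}} (g : Y ⟶ X) [IsOpenImmersion g]
    (α : LocalIso M N g.opensRange) : M.restrict g ≅ N.restrict g where
  hom := α.hom.toRestrict g
  inv := α.inv.toRestrict g
  hom_inv_id := by rw [← LocalHom.toRestrict_comp, α.hom_inv_id, LocalHom.toRestrict_id]
  inv_hom_id := by rw [← LocalHom.toRestrict_comp, α.inv_hom_id, LocalHom.toRestrict_id]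

/-- An isomorphism between the restrictions along an open immersion `g` as a local isomorphism
over the range of `g`. -/
noncomputable def ofRestrictIso {Y : Scheme.{u}} (g : Y ⟶ X) [IsOpenImmersion g]
    (e : M.restrict g ≅ N.restrict g) : LocalIso M N g.opensRange where
  hom := LocalHom.ofRestrict g e.hom
  inv := LocalHom.ofRestrict g e.inv
  hom_inv_id := by rw [← LocalHom.ofRestrict_comp, e.hom_inv_id, LocalHom.ofRestrict_id]
  inv_hom_id := by rw [← LocalHom.ofRestrict_comp, e.inv_hom_id, LocalHom.ofRestrict_id]

end LocalIso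

section GlueIso

variable {M N : X.Modules} {κ : Type*} (U : κ → X.Opens) (hcover : iSup U = ⊤)

include hcover in
/-- A compatible family of local isomorphisms on an open cover glues to a unique global
isomorphism. -/
theorem LocalIso.exists_iso_of_cover (α : ∀ i, LocalIso M N (U i))
    (hα : ∀ i j, (α i).hom.restrict (inf_le_left : U i ⊓ U j ≤ U i) =
      (α j).hom.restrict (inf_le_right : U i ⊓ U j ≤ U j)) :
    ∃ e : M ≅ N, ∀ i, LocalIso.ofIso e (U i) = α i := by
  obtain ⟨f, hf, -⟩ := LocalHom.existsUnique_hom_of_cover U hcover (fun i => (α i).hom) hα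
  have hiso : IsIso f := LocalHom.isIso_of_cover_localInv U hcover f (fun i => (α i).inv)
    (fun i => by rw [hf i, (α i).hom_inv_id]) (fun i => by rw [hf i, (α i).inv_hom_id])
  refine ⟨asIso f, fun i => ?_⟩
  apply LocalIso.ext
  exact hf i

end GlueIso

end Fermat.Agent.Jac.ModGlue88
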