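/-
M1 consumer layer (JAC programme, S25): the unit module, scalar endomorphisms, and
`Hom(𝒪, M) = Γ(M)` in local (sectionwise) form.
-/
import Fermat.Agent.Jac.ModGlue88.LocalIso

set_option autoImplicit false

universe u

open CategoryTheory AlgebraicGeometry TopologicalSpace Opposite

namespace Fermat.Agent.Jac.ModGlue88

variable {X : Scheme.{u}}

/-- The structure sheaf as a module over itself. -/
noncomputable abbrev unitMod (X : Scheme.{u}) : X.Modules := SheafOfModules.unit X.ringCatSheaf

/-- Sections of the unit module are functions (a definitional equality, made explicit). -/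
noncomputable def unitSecs (W : X.Opens) : Γ(X, W) ≃+ Γ(unitMod X, W) := AddEquiv.refl _

lemma unitSecs_res {W' W : X.Opens} (h : W' ≤ W) (r : Γ(X, W)) :
    unitSecs W' (resO X h r) = res (unitMod X) h (unitSecs W r) := rfl

lemma unitSecs_symm_res {W' W : X.Opens} (h : W' ≤ W) (y : Γ(unitMod X, W)) :
    (unitSecs W').symm (res (unitMod X) h y) = resO X h ((unitSecs W).symm y) := rfl

lemma unitSecs_smul (W : X.Opens) (r s : Γ(X, W)) :
    unitSecs W (r * s) = r • unitSecs W s := rfl

lemma unitSecs_symm_smul (W : X.Opens) (r : Γ(X, W)) (y : Γ(unitMod X, W)) :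
    (unitSecs W).symm (r • y) = r * (unitSecs W).symm y := rfl

/-- Functions are determined locally. -/
lemma resO_ext {κ : Type*} (Wa : κ → X.Opens) (W : X.Opens) (h : ∀ a, Wa a ≤ W)
    (hcover : W ≤ iSup Wa) (s t : Γ(X, W)) (hst : ∀ a, resO X (h a) s = resO X (h a) t) :
    s = t := by
  apply (unitSecs W).injective
  refine res_ext (unitMod X) Wa W h hcover _ _ (fun a => ?_)
  rw [← unitSecs_res, ← unitSecs_res, hst a]

/-- Compatible functions glue. -/
lemma resO_glue {κ : Type*} (Wa : κ → X.Opens) (W : X.Opens) (h : ∀ a, Wa a ≤ W)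
    (hcover : W ≤ iSup Wa) (sf : ∀ a, Γ(X, Wa a))
    (hcompat : ∀ a b, resO X (inf_le_left : Wa a ⊓ Wa b ≤ Wa a) (sf a) =
      resO X (inf_le_right : Wa a ⊓ Wa b ≤ Wa b) (sf b)) :
    ∃ s : Γ(X, W), ∀ a, resO X (h a) s = sf a := by
  obtain ⟨s, hs⟩ := res_glue (unitMod X) Wa W h hcover (fun a => unitSecs (Wa a) (sf a))
    (fun a b => by rw [← unitSecs_res, ← unitSecs_res, hcompat a b])
  refine ⟨(unitSecs W).symm s, fun a => ?_⟩
  apply (unitSecs (Wa a)).injective
  rw [unitSecs_res, AddEquiv.apply_symm_apply, hs a]

namespace LocalHom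

variable {M N : X.Modules} {U U' : X.Opens}

/-- Multiplication by a function, as a local endomorphism. -/
noncomputable def scalar (M : X.Modules) (U : X.Opens) (r : Γ(X, U)) : LocalHom M M U where
  app W hW := DistribSMul.toAddMonoidHom Γ(M, W) (resO X hW r)
  app_res W' W hW h x := by
    change res M h (resO X hW r • x) = resO X (h.trans hW) r • res M h x
    rw [res_smul, resO_resO]
  app_smul W hW s x := by
    change resO X hW r • (s • x) = s • (resO X hW r • x)
    rw [smul_smul, smul_smul, mul_comm]

@[simp] lemma scalar_app (r : Γ(X, U)) (W : X.Opens) (hW : W ≤ U) (x : Γ(M, W)) :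
    (scalar M U r).app W hW x = resO X hW r • x := rfl

@[simp] lemma scalar_one : scalar M U 1 = LocalHom.id M U := by
  ext W hW x; simp

lemma scalar_mul (r s : Γ(X, U)) : scalar M U (r * s) = (scalar M U s).comp (scalar M U r) := by
  ext W hW x
  simp [mul_smul]

@[simp] lemma scalar_restrict (r : Γ(X, U)) (h : U' ≤ U) :
    (scalar M U r).restrict h = scalar M U' (resO X h r) := by
  ext W hW x
  simp

/-- Scalars commute with all local morphisms. -/
lemma scalar_comp (r : Γ(X, U)) (L : LocalHom M N U) :
    (scalar M U r).comp L = L.comp (scalar N U r) := by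
  ext W hW x
  simp [L.app_smul]

/-- The local morphism `𝒪 ⟶ M` over `U` attached to a section of `M` over `U`. -/
noncomputable def ofSection (M : X.Modules) (U : X.Opens) (s : Γ(M, U)) :
    LocalHom (unitMod X) M U where
  app W hW :=
    { toFun := fun y => (unitSecs W).symm y • res M hW s
      map_zero' := by simp
      map_add' := by intro y y'; simp [add_smul] }
  app_res W' W hW h y := by
    change res M h ((unitSecs W).symm y • res M hW s) =
      (unitSecs W').symm (res (unitMod X) h y) • res M (h.trans hW) s
    rw [res_smul, res_res, unitSecs_symm_res]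
  app_smul W hW r y := by
    change (unitSecs W).symm (r • y) • res M hW s = r • ((unitSecs W).symm y • res M hW s)
    rw [unitSecs_symm_smul, mul_smul]

@[simp] lemma ofSection_app (s : Γ(M, U)) (W : X.Opens) (hW : W ≤ U) (y : Γ(unitMod X, W)) :
    (ofSection M U s).app W hW y = (unitSecs W).symm y • res M hW s := rfl

/-- The value at `1` of a local morphism `𝒪 ⟶ M` over `U`. -/
noncomputable def evalOne (L : LocalHom (unitMod X) M U) : Γ(M, U) :=
  L.app U le_rfl (unitSecs U 1)

@[simp] lemma evalOne_ofSection (s : Γ(M, U)) : evalOne (ofSection M U s) = s := by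
  simp [evalOne]

@[simp] lemma ofSection_evalOne (L : LocalHom (unitMod X) M U) : ofSection M U (evalOne L) = L := by
  ext W hW y
  rw [ofSection_app, evalOne, L.app_res, ← L.app_smul]
  congr 1
  apply (unitSecs W).symm.injective
  rw [unitSecs_symm_smul, unitSecs_symm_res, AddEquiv.symm_apply_apply, map_one, mul_one]

/-- `Hom(𝒪|U, M|U) = Γ(M, U)`. -/
noncomputable def unitHomEquiv (M : X.Modules) (U : X.Opens) :
    LocalHom (unitMod X) M U ≃ Γ(M, U) where
  toFun := evalOne
  invFun := ofSection M U
  left_inv := ofSection_evalOne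
  right_inv := evalOne_ofSection

/-- A local endomorphism of `𝒪` is multiplication by a unique function. -/
lemma eq_scalar_unit (L : LocalHom (unitMod X) (unitMod X) U) :
    L = scalar (unitMod X) U ((unitSecs U).symm (evalOne L)) := by
  conv_lhs => rw [← ofSection_evalOne L]
  ext W hW y
  rw [ofSection_app, scalar_app]
  apply (unitSecs W).symm.injective
  rw [unitSecs_symm_smul, unitSecs_symm_smul, unitSecs_symm_res, mul_comm]

lemma scalar_unit_injective :
    Function.Injective (scalar (unitMod X) U) := by
  intro r s h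
  have := congrArg (fun L => (unitSecs U).symm (evalOne L)) h
  simpa [evalOne, unitSecs_symm_smul] using this

end LocalHom

end Fermat.Agent.Jac.ModGlue88
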