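/-
M1 consumer layer (JAC programme, S25): locally trivial (invertible) modules, sectionwise:
local endomorphisms are scalars; local isomorphisms differ by units.
-/
import Fermat.Agent.Jac.ModGlue88.UnitMod

set_option autoImplicit false

universe u

open CategoryTheory AlgebraicGeometry TopologicalSpace Opposite

namespace Fermat.Agent.Jac.ModGlue88

variable {X : Scheme.{u}}

/-- `M` is locally isomorphic to the structure sheaf at every point of the open `U`. -/
def IsLocallyTrivial (M : X.Modules) (U : X.Opens) : Prop :=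
  ∀ x : X, x ∈ U → ∃ W : X.Opens, W ≤ U ∧ x ∈ W ∧ Nonempty (LocalIso M (unitMod X) W)

namespace IsLocallyTrivial

variable {M N : X.Modules} {U U' : X.Opens}

lemma mono (h : IsLocallyTrivial M U) (hU : U' ≤ U) : IsLocallyTrivial M U' := by
  intro x hx
  obtain ⟨W, hW, hxW, ⟨α⟩⟩ := h x (hU hx)
  exact ⟨W ⊓ U', inf_le_right, ⟨hxW, hx⟩, ⟨α.restrict inf_le_left⟩⟩

lemma of_localIso (h : IsLocallyTrivial M U) (α : LocalIso N M U) : IsLocallyTrivial N U := by
  intro x hx
  obtain ⟨W, hW, hxW, ⟨β⟩⟩ := h x hx
  exact ⟨W, hW, hxW, ⟨(α.restrict hW).trans β⟩⟩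

lemma unitMod (U : X.Opens) : IsLocallyTrivial (unitMod X) U :=
  fun _ hx => ⟨U, le_rfl, hx, ⟨LocalIso.refl _ _⟩⟩

/-- Local triviality can be checked on an open cover. -/
lemma of_cover {κ : Type*} (V : κ → X.Opens) (hV : U ≤ iSup V)
    (h : ∀ i, IsLocallyTrivial M (V i ⊓ U)) : IsLocallyTrivial M U := by
  intro x hx
  obtain ⟨i, hi⟩ := TopologicalSpace.Opens.mem_iSup.mp (hV hx)
  obtain ⟨W, hW, hxW, hα⟩ := h i x ⟨hi, hx⟩
  exact ⟨W, hW.trans inf_le_right, hxW, hα⟩

/-- A trivialising cover of `U`, indexed by the points of `U`. -/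
lemma exists_cover (h : IsLocallyTrivial M U) :
    ∃ (W : U → X.Opens), (∀ x, W x ≤ U) ∧ U ≤ iSup W ∧
      ∀ x, Nonempty (LocalIso M (ModGlue88.unitMod X) (W x)) := by
  choose W hW hxW hα using fun x : U => h x.1 x.2
  refine ⟨W, hW, ?_, hα⟩
  intro x hx
  exact TopologicalSpace.Opens.mem_iSup.mpr ⟨⟨x, hx⟩, hxW ⟨x, hx⟩⟩

end IsLocallyTrivial

namespace LocalHom

variable {M N : X.Modules} {U : X.Opens}

/-- On a trivial module, every local endomorphism is a scalar. -/
lemma exists_scalar_of_localIso (α : LocalIso M (unitMod X) U) (L : LocalHom M M U) :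
    ∃ r : Γ(X, U), L = scalar M U r := by
  refine ⟨(unitSecs U).symm (evalOne ((α.inv.comp L).comp α.hom)), ?_⟩
  have h1 := eq_scalar_unit ((α.inv.comp L).comp α.hom)
  set r := (unitSecs U).symm (evalOne ((α.inv.comp L).comp α.hom)) with hr
  have h2 : L = (α.hom.comp ((α.inv.comp L).comp α.hom)).comp α.inv := by
    rw [comp_assoc, comp_assoc, α.hom_inv_id, comp_id, ← comp_assoc, α.hom_inv_id, id_comp]
  rw [h2, h1, ← scalar_comp, comp_assoc, α.hom_inv_id, comp_id]

/-- On a trivial module, scalars are determined by their action. -/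
lemma scalar_injective_of_localIso (α : LocalIso M (unitMod X) U) :
    Function.Injective (scalar M U) := by
  intro r s h
  apply scalar_unit_injective (X := X) (U := U)
  have hr : scalar (unitMod X) U r = (α.inv.comp (scalar M U r)).comp α.hom := by
    rw [← scalar_comp, comp_assoc, α.inv_hom_id, comp_id]
  have hs : scalar (unitMod X) U s = (α.inv.comp (scalar M U s)).comp α.hom := by
    rw [← scalar_comp, comp_assoc, α.inv_hom_id, comp_id]
  rw [hr, hs, h]

/-- On a locally trivial module, scalars are determined by their action. -/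
theorem scalar_injective (h : IsLocallyTrivial M U) : Function.Injective (scalar M U) := by
  intro r s hrs
  obtain ⟨W, hWU, hcov, hα⟩ := h.exists_cover
  refine resO_ext W U hWU hcov r s (fun x => ?_)
  obtain ⟨α⟩ := hα x
  apply scalar_injective_of_localIso α
  rw [← scalar_restrict r (hWU x), ← scalar_restrict s (hWU x), hrs]

/-- On a locally trivial module, every local endomorphism is a scalar. -/
theorem exists_scalar (h : IsLocallyTrivial M U) (L : LocalHom M M U) :
    ∃ r : Γ(X, U), L = scalar M U r := by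
  obtain ⟨W, hWU, hcov, hα⟩ := h.exists_cover
  have hr : ∀ x, ∃ r : Γ(X, W x), L.restrict (hWU x) = scalar M (W x) r := fun x => by
    obtain ⟨α⟩ := hα x
    exact exists_scalar_of_localIso α _
  choose r hr using hr
  obtain ⟨r₀, hr₀⟩ := resO_glue W U hWU hcov r (fun x y => by
    apply scalar_injective ((h.mono (hWU x)).mono inf_le_left)
    rw [← scalar_restrict, ← scalar_restrict, ← hr x, ← hr y, restrict_restrict,
      restrict_restrict])
  refine ⟨r₀, ?_⟩
  have huniq := existsUnique_glue W U hWU hcov (fun x => L.restrict (hWU x))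
    (fun x y => by rw [restrict_restrict, restrict_restrict])
  refine huniq.unique (fun x => rfl) (fun x => ?_)
  rw [scalar_restrict, hr₀ x, hr x]

/-- On a locally trivial module, local endomorphisms are the same as functions. -/
noncomputable def scalarEquiv (h : IsLocallyTrivial M U) : Γ(X, U) ≃ LocalHom M M U :=
  Equiv.ofBijective (scalar M U)
    ⟨scalar_injective h, fun L => (exists_scalar h L).imp fun _ hr => hr.symm⟩

end LocalHom

namespace LocalIso

variable {M N : X.Modules} {U : X.Opens}

/-- Multiplication by a unit, as a local automorphism. -/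
noncomputable def scalarUnit (M : X.Modules) (U : X.Opens) (r : (Γ(X, U))ˣ) : LocalIso M M U where
  hom := LocalHom.scalar M U r
  inv := LocalHom.scalar M U (r⁻¹ : (Γ(X, U))ˣ)
  hom_inv_id := by rw [← LocalHom.scalar_mul, Units.inv_mul, LocalHom.scalar_one]
  inv_hom_id := by rw [← LocalHom.scalar_mul, Units.mul_inv, LocalHom.scalar_one]

/-- Two local isomorphisms out of a locally trivial module differ by a unique unit. -/
theorem existsUnique_unit (h : IsLocallyTrivial M U) (α β : LocalIso M N U) :
    ∃! r : (Γ(X, U))ˣ, β.hom = (LocalHom.scalar M U r).comp α.hom := by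
  obtain ⟨r, hr⟩ := LocalHom.exists_scalar h (β.hom.comp α.inv)
  obtain ⟨s, hs⟩ := LocalHom.exists_scalar h (α.hom.comp β.inv)
  have hrs : r * s = 1 := by
    apply LocalHom.scalar_injective h
    rw [LocalHom.scalar_mul, ← hr, ← hs, LocalHom.scalar_one, LocalHom.comp_assoc,
      ← LocalHom.comp_assoc β.inv, β.inv_hom_id, LocalHom.id_comp, α.hom_inv_id]
  have hsr : s * r = 1 := by rw [mul_comm, hrs]
  have hβ : β.hom = (LocalHom.scalar M U r).comp α.hom := by
    rw [← hr, LocalHom.comp_assoc, α.inv_hom_id, LocalHom.comp_id]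
  refine ⟨⟨r, s, hrs, hsr⟩, hβ, ?_⟩
  intro r' hr'
  apply Units.ext
  apply LocalHom.scalar_injective h
  change LocalHom.scalar M U r' = LocalHom.scalar M U r
  have h1 : LocalHom.scalar M U (r' : Γ(X, U)) = β.hom.comp α.inv := by
    rw [hr', LocalHom.comp_assoc, α.hom_inv_id, LocalHom.comp_id]
  rw [h1, hr]

end LocalIso

end Fermat.Agent.Jac.ModGlue88
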