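/-
M1 consumer layer (JAC programme, S25): transport of local morphisms along an open immersion
`g : Y ⟶ X`: local morphisms `M|g ⟶ N|g` over `V ⊆ Y` are local morphisms `M ⟶ N` over `g(V)`.
-/
import Fermat.Agent.Jac.ModGlue88.LocTriv

set_option autoImplicit false

universe u

open CategoryTheory AlgebraicGeometry TopologicalSpace Opposite

namespace Fermat.Agent.Jac.ModGlue88

variable {X Y : Scheme.{u}} (g : Y ⟶ X) [IsOpenImmersion g] {M N P : X.Modules}

namespace LocalHom

/-- Restrict a local morphism over `g(V)` to a local morphism between the restrictions along the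
open immersion `g`, over `V`. -/
noncomputable def pullOpen (V : Y.Opens) (L : LocalHom M N (g ''ᵁ V)) :
    LocalHom (M.restrict g) (N.restrict g) V where
  app V' hV' := (rIn g N V').toAddMonoidHom.comp
    ((L.app (g ''ᵁ V') (g.image_mono hV')).comp (rIn g M V').symm.toAddMonoidHom)
  app_res V'' V' hV' h y := by
    simp only [AddMonoidHom.comp_apply, AddEquiv.coe_toAddMonoidHom]
    rw [← rIn_res g N h, L.app_res, ← rIn_symm_res g M h]
  app_smul V' hV' r y := by
    simp only [AddMonoidHom.comp_apply, AddEquiv.coe_toAddMonoidHom]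
    rw [rIn_symm_smul, L.app_smul, rIn_smul]
    congr 1
    rw [← CommRingCat.comp_apply, Iso.inv_hom_id]; rfl

lemma pullOpen_app (V : Y.Opens) (L : LocalHom M N (g ''ᵁ V)) (V' : Y.Opens) (hV' : V' ≤ V)
    (y : Γ(M.restrict g, V')) :
    (pullOpen g V L).app V' hV' y =
      rIn g N V' (L.app (g ''ᵁ V') (g.image_mono hV') ((rIn g M V').symm y)) := rfl

lemma preimage_le_of_le_image {V : Y.Opens} {W : X.Opens} (hW : W ≤ g ''ᵁ V) : g ⁻¹ᵁ W ≤ V := by
  have := g.preimage_mono hW
  rwa [g.preimage_image_eq] at this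

lemma le_image_preimage_of_le_image {V : Y.Opens} {W : X.Opens} (hW : W ≤ g ''ᵁ V) :
    W ≤ g ''ᵁ g ⁻¹ᵁ W :=
  le_image_preimage g (hW.trans (g.image_le_opensRange V))

/-- Extend a local morphism between the restrictions along the open immersion `g`, over `V`, to a
local morphism over `g(V)`. -/
noncomputable def pushOpen (V : Y.Opens) (L : LocalHom (M.restrict g) (N.restrict g) V) :
    LocalHom M N (g ''ᵁ V) where
  app W hW := (res N (le_image_preimage_of_le_image g hW)).comp
    ((rIn g N (g ⁻¹ᵁ W)).symm.toAddMonoidHom.comp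
      ((L.app (g ⁻¹ᵁ W) (preimage_le_of_le_image g hW)).comp
        ((rIn g M (g ⁻¹ᵁ W)).toAddMonoidHom.comp (res M (image_preimage_le' g W)))))
  app_res W' W hW h x := by
    simp only [AddMonoidHom.comp_apply, AddEquiv.coe_toAddMonoidHom]
    have h1 : g ⁻¹ᵁ W' ≤ g ⁻¹ᵁ W := g.preimage_mono h
    rw [res_res, res_res]
    have e1 : rIn g M (g ⁻¹ᵁ W') (res M ((image_preimage_le' g W').trans h) x) =
        res (M.restrict g) h1 (rIn g M (g ⁻¹ᵁ W) (res M (image_preimage_le' g W) x)) := by
      rw [← rIn_res g M h1, res_res]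
    rw [e1, ← L.app_res _ _ (preimage_le_of_le_image g hW) h1, rIn_symm_res g N h1, res_res]
  app_smul W hW r x := by
    simp only [AddMonoidHom.comp_apply, AddEquiv.coe_toAddMonoidHom]
    rw [res_smul, rIn_smul, L.app_smul, rIn_symm_smul, res_smul]
    congr 1
    have : (g.appIso (g ⁻¹ᵁ W)).inv ((g.appIso (g ⁻¹ᵁ W)).hom
        (resO X (image_preimage_le' g W) r)) = resO X (image_preimage_le' g W) r := by
      rw [← CommRingCat.comp_apply, Iso.hom_inv_id]; rfl
    rw [this, resO_resO, resO_self]

lemma pushOpen_app (V : Y.Opens) (L : LocalHom (M.restrict g) (N.restrict g) V) (W : X.Opens)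
    (hW : W ≤ g ''ᵁ V) (x : Γ(M, W)) :
    (pushOpen g V L).app W hW x =
      res N (le_image_preimage_of_le_image g hW) ((rIn g N (g ⁻¹ᵁ W)).symm
        (L.app (g ⁻¹ᵁ W) (preimage_le_of_le_image g hW)
          (rIn g M (g ⁻¹ᵁ W) (res M (image_preimage_le' g W) x)))) := rfl

@[simp] lemma pushOpen_pullOpen (V : Y.Opens) (L : LocalHom M N (g ''ᵁ V)) :
    pushOpen g V (pullOpen g V L) = L := by
  ext W hW x
  rw [pushOpen_app, pullOpen_app, AddEquiv.symm_apply_apply, AddEquiv.symm_apply_apply,
    L.app_res, res_res, res_self]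

@[simp] lemma pullOpen_pushOpen (V : Y.Opens) (L : LocalHom (M.restrict g) (N.restrict g) V) :
    pullOpen g V (pushOpen g V L) = L := by
  ext V' hV' y
  rw [pullOpen_app, pushOpen_app]
  have hV : g ⁻¹ᵁ g ''ᵁ V' ≤ V' := le_of_eq (g.preimage_image_eq V')
  have e1 : rIn g M (g ⁻¹ᵁ g ''ᵁ V') (res M (image_preimage_le' g (g ''ᵁ V')) ((rIn g M V').symm y))
      = res (M.restrict g) hV y := by
    rw [← rIn_symm_res g M hV, AddEquiv.apply_symm_apply]
  rw [e1, ← L.app_res _ _ hV' hV, rIn_symm_res g N hV, res_res, res_self,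
    AddEquiv.apply_symm_apply]

/-- Local morphisms over `g(V)` are the same as local morphisms between the restrictions along
`g` over `V`. -/
noncomputable def openEquiv (V : Y.Opens) :
    LocalHom M N (g ''ᵁ V) ≃ LocalHom (M.restrict g) (N.restrict g) V where
  toFun := pullOpen g V
  invFun := pushOpen g V
  left_inv := pushOpen_pullOpen g V
  right_inv := pullOpen_pushOpen g V

@[simp] lemma pullOpen_id (V : Y.Opens) :
    pullOpen g V (LocalHom.id M (g ''ᵁ V)) = LocalHom.id (M.restrict g) V := by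
  ext V' hV' y
  rfl

@[simp] lemma pullOpen_comp (V : Y.Opens) (L : LocalHom M N (g ''ᵁ V))
    (L' : LocalHom N P (g ''ᵁ V)) :
    pullOpen g V (L.comp L') = (pullOpen g V L).comp (pullOpen g V L') := by
  ext V' hV' y
  rfl

@[simp] lemma pushOpen_id (V : Y.Opens) :
    pushOpen g V (LocalHom.id (M.restrict g) V) = LocalHom.id M (g ''ᵁ V) := by
  rw [← pullOpen_id, pushOpen_pullOpen]

@[simp] lemma pushOpen_comp (V : Y.Opens) (L : LocalHom (M.restrict g) (N.restrict g) V)
    (L' : LocalHom (N.restrict g) (P.restrict g) V) :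
    pushOpen g V (L.comp L') = (pushOpen g V L).comp (pushOpen g V L') := by
  apply (openEquiv g V).injective
  change pullOpen g V (pushOpen g V (L.comp L')) =
    pullOpen g V ((pushOpen g V L).comp (pushOpen g V L'))
  rw [pullOpen_comp, pullOpen_pushOpen, pullOpen_pushOpen, pullOpen_pushOpen]

lemma pullOpen_restrict {V' V : Y.Opens} (h : V' ≤ V) (L : LocalHom M N (g ''ᵁ V)) :
    (pullOpen g V L).restrict h = pullOpen g V' (L.restrict (g.image_mono h)) := by
  ext V'' hV'' y
  rfl

end LocalHom

namespace LocalIso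

/-- Restrict a local isomorphism over `g(V)` to the restrictions along `g`. -/
noncomputable def pullOpen (V : Y.Opens) (α : LocalIso M N (g ''ᵁ V)) :
    LocalIso (M.restrict g) (N.restrict g) V where
  hom := LocalHom.pullOpen g V α.hom
  inv := LocalHom.pullOpen g V α.inv
  hom_inv_id := by rw [← LocalHom.pullOpen_comp, α.hom_inv_id, LocalHom.pullOpen_id]
  inv_hom_id := by rw [← LocalHom.pullOpen_comp, α.inv_hom_id, LocalHom.pullOpen_id]

/-- Extend a local isomorphism between the restrictions along `g` over `V` to `g(V)`. -/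
noncomputable def pushOpen (V : Y.Opens) (α : LocalIso (M.restrict g) (N.restrict g) V) :
    LocalIso M N (g ''ᵁ V) where
  hom := LocalHom.pushOpen g V α.hom
  inv := LocalHom.pushOpen g V α.inv
  hom_inv_id := by rw [← LocalHom.pushOpen_comp, α.hom_inv_id, LocalHom.pushOpen_id]
  inv_hom_id := by rw [← LocalHom.pushOpen_comp, α.inv_hom_id, LocalHom.pushOpen_id]

end LocalIso

end Fermat.Agent.Jac.ModGlue88
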