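/-
M1 consumer layer (JAC programme, S25), brick G3: the Prelude notion
`Scheme.Modules.IsInvertible` in sectionwise terms; it is stable under isomorphisms and local on
open covers.
-/
import Fermat.Agent.Jac.ModGlue88.Transport
import Fermat.Prelude.Def_AlgebraicGeometry_RelativePicardFunctor

set_option autoImplicit false

universe u

open CategoryTheory AlgebraicGeometry TopologicalSpace Opposite

namespace Fermat.Agent.Jac.ModGlue88

open Scheme.Modules

variable {X Y : Scheme.{u}}

section Transport

variable (g : Y ⟶ X) [IsOpenImmersion g] {M : X.Modules}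

/-- Local triviality of the restriction along an open immersion. -/
theorem isLocallyTrivial_restrict_iff (V : Y.Opens) :
    IsLocallyTrivial (M.restrict g) V ↔ IsLocallyTrivial M (g ''ᵁ V) := by
  constructor
  · intro h x hx
    obtain ⟨y, hy, rfl⟩ := hx
    obtain ⟨V', hV', hyV', ⟨α⟩⟩ := h y hy
    let β : LocalIso (M.restrict g) ((unitMod X).restrict g) V' :=
      α.trans (LocalIso.ofIso (restrictUnitIso g).symm V')
    exact ⟨g ''ᵁ V', g.image_mono hV', ⟨y, hyV', rfl⟩, ⟨LocalIso.pushOpen g V' β⟩⟩
  · intro h y hy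
    obtain ⟨W, hW, hxW, ⟨α⟩⟩ := h (g y) ⟨y, hy, rfl⟩
    have hV' : g ⁻¹ᵁ W ≤ V := LocalHom.preimage_le_of_le_image g hW
    have hle : g ''ᵁ g ⁻¹ᵁ W ≤ W := LocalHom.image_preimage_le' g W
    let β : LocalIso (M.restrict g) ((unitMod X).restrict g) (g ⁻¹ᵁ W) :=
      LocalIso.pullOpen g (g ⁻¹ᵁ W) (α.restrict hle)
    exact ⟨g ⁻¹ᵁ W, hV', hxW, ⟨β.trans (LocalIso.ofIso (restrictUnitIso g) _)⟩⟩

end Transport

variable {M M' : X.Modules}

/-- (G3) The Prelude notion of invertible module, sectionwise: locally isomorphic to the unit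
module. -/
theorem isInvertible_iff_isLocallyTrivial :
    Scheme.Modules.IsInvertible M ↔ IsLocallyTrivial M ⊤ := by
  constructor
  · intro h x _
    obtain ⟨U, hxU, ⟨e⟩⟩ := h.1 x
    have e' : M.restrict U.ι ≅ unitMod U.toScheme :=
      (restrictFunctorIsoPullback U.ι).app M ≪≫ e
    have h1 : IsLocallyTrivial (M.restrict U.ι) ⊤ :=
      fun y _ => ⟨⊤, le_rfl, trivial, ⟨LocalIso.ofIso e' ⊤⟩⟩
    have h2 := (isLocallyTrivial_restrict_iff U.ι ⊤).mp h1
    rw [U.ι_image_top] at h2
    obtain ⟨W, -, hxW, hα⟩ := h2 x hxU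
    exact ⟨W, le_top, hxW, hα⟩
  · intro h
    refine ⟨fun x => ?_⟩
    obtain ⟨W, -, hxW, ⟨α⟩⟩ := h x trivial
    exact ⟨W, hxW, ⟨((restrictFunctorIsoPullback W.ι).app M).symm ≪≫ α.toRestrictιIso ≪≫
      restrictUnitIso W.ι⟩⟩

/-- (G3) Invertibility is stable under isomorphisms. -/
theorem isInvertible_of_iso (e : M ≅ M') (h : Scheme.Modules.IsInvertible M) :
    Scheme.Modules.IsInvertible M' := by
  rw [isInvertible_iff_isLocallyTrivial] at h ⊢
  exact h.of_localIso (LocalIso.ofIso e.symm ⊤)

/-- Invertibility of the restriction along an open immersion, sectionwise. -/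
theorem isInvertible_restrict_iff (g : Y ⟶ X) [IsOpenImmersion g] :
    Scheme.Modules.IsInvertible (M.restrict g) ↔ IsLocallyTrivial M g.opensRange := by
  rw [isInvertible_iff_isLocallyTrivial, isLocallyTrivial_restrict_iff, g.image_top_eq_opensRange]

/-- Invertibility of the pullback along an open immersion, sectionwise. -/
theorem isInvertible_pullback_iff (g : Y ⟶ X) [IsOpenImmersion g] :
    Scheme.Modules.IsInvertible ((pullback g).obj M) ↔ IsLocallyTrivial M g.opensRange := by
  rw [← isInvertible_restrict_iff]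
  exact ⟨isInvertible_of_iso ((restrictFunctorIsoPullback g).app M).symm,
    isInvertible_of_iso ((restrictFunctorIsoPullback g).app M)⟩

/-- (G3) Invertibility is local: sectionwise form. -/
theorem isInvertible_of_cover {κ : Type*} (U : κ → X.Opens) (hcover : iSup U = ⊤)
    (h : ∀ i, IsLocallyTrivial M (U i)) : Scheme.Modules.IsInvertible M := by
  rw [isInvertible_iff_isLocallyTrivial]
  refine IsLocallyTrivial.of_cover U (le_of_eq hcover.symm) (fun i => (h i).mono inf_le_left)

/-- (G3) Invertibility is local: a module whose pullbacks to the members of an open cover are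
invertible is invertible. -/
theorem isInvertible_of_cover_pullback {κ : Type*} (U : κ → X.Opens) (hcover : iSup U = ⊤)
    (h : ∀ i, Scheme.Modules.IsInvertible ((pullback (U i).ι).obj M)) :
    Scheme.Modules.IsInvertible M := by
  refine isInvertible_of_cover U hcover (fun i => ?_)
  have := (isInvertible_pullback_iff (U i).ι).mp (h i)
  rwa [(U i).opensRange_ι] at this

/-- (G3) Invertibility is local: restriction form. -/
theorem isInvertible_of_cover_restrict {κ : Type*} (U : κ → X.Opens) (hcover : iSup U = ⊤)
    (h : ∀ i, Scheme.Modules.IsInvertible (M.restrict (U i).ι)) :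
    Scheme.Modules.IsInvertible M := by
  refine isInvertible_of_cover U hcover (fun i => ?_)
  have := (isInvertible_restrict_iff (U i).ι).mp (h i)
  rwa [(U i).opensRange_ι] at this

/-- (G3) Invertibility is local, for a family of open immersions covering `X`. -/
theorem isInvertible_of_openCover_pullback {κ : Type*} {Z : κ → Scheme.{u}}
    (g : ∀ i, Z i ⟶ X) [∀ i, IsOpenImmersion (g i)] (hcover : ⨆ i, (g i).opensRange = ⊤)
    (h : ∀ i, Scheme.Modules.IsInvertible ((pullback (g i)).obj M)) :
    Scheme.Modules.IsInvertible M :=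
  isInvertible_of_cover (fun i => (g i).opensRange) hcover
    (fun i => (isInvertible_pullback_iff (g i)).mp (h i))

/-- (G4) Automorphisms of an invertible module are the units of the ring of global functions:
every endomorphism is multiplication by a unique global function. -/
theorem existsUnique_scalar_of_isInvertible (h : Scheme.Modules.IsInvertible M) (f : M ⟶ M) :
    ∃! r : Γ(X, ⊤), LocalHom.ofHom f ⊤ = LocalHom.scalar M ⊤ r := by
  rw [isInvertible_iff_isLocallyTrivial] at h
  obtain ⟨r, hr⟩ := LocalHom.exists_scalar h (LocalHom.ofHom f ⊤)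
  exact ⟨r, hr, fun s hs => LocalHom.scalar_injective h (hs.symm.trans hr)⟩

end Fermat.Agent.Jac.ModGlue88
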