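/-
M1b support (JAC programme, S25): gluing of modules on a scheme from a sectionwise datum.

A `Datum` on `X` consists of opens `U i`, modules `N i` on `X` (in applications the pushforward to
`X` of a module on `U i`), and transition local morphisms `φ i j : LocalHom (N i) (N j) (U i ⊓ U j)`
with `φ i i = id` and the cocycle condition on triple overlaps.  The glued module has sections
over `V` the compatible families in `∏ i, Γ(N i, V ⊓ U i)`.
-/
import Fermat.Agent.Jac.ModGlue88.RestrictOpen

set_option autoImplicit false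

universe u

open CategoryTheory AlgebraicGeometry TopologicalSpace Opposite

namespace Fermat.Agent.Jac.ModGlue88

variable {X : Scheme.{u}}

/-- Sectionwise gluing datum for modules on a scheme. -/
structure Datum (X : Scheme.{u}) where
  /-- the index type of the cover -/
  ι : Type u
  /-- the opens on which the pieces live -/
  U : ι → X.Opens
  /-- the pieces, as modules on `X` (only their restriction to `U i` matters) -/
  N : ι → X.Modules
  /-- the transition morphisms on the overlaps -/
  φ : ∀ i j : ι, LocalHom (N i) (N j) (U i ⊓ U j)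
  φ_self : ∀ i : ι, φ i i = LocalHom.id (N i) (U i ⊓ U i)
  cocycle : ∀ i j k : ι,
    ((φ i j).restrict (inf_le_left : U i ⊓ U j ⊓ U k ≤ U i ⊓ U j)).comp
      ((φ j k).restrict (le_inf (inf_le_left.trans inf_le_right) inf_le_right :
        U i ⊓ U j ⊓ U k ≤ U j ⊓ U k)) =
    (φ i k).restrict (le_inf (inf_le_left.trans inf_le_left) inf_le_right :
        U i ⊓ U j ⊓ U k ≤ U i ⊓ U k)

namespace Datum

variable (D : Datum X)

lemma φ_self_app (i : D.ι) (W : X.Opens) (hW : W ≤ D.U i ⊓ D.U i) (x : Γ(D.N i, W)) :
    (D.φ i i).app W hW x = x := by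
  rw [D.φ_self i]; rfl

lemma cocycle_app (i j k : D.ι) (W : X.Opens) (hij : W ≤ D.U i ⊓ D.U j)
    (hjk : W ≤ D.U j ⊓ D.U k) (hik : W ≤ D.U i ⊓ D.U k) (x : Γ(D.N i, W)) :
    (D.φ j k).app W hjk ((D.φ i j).app W hij x) = (D.φ i k).app W hik x := by
  have hW : W ≤ D.U i ⊓ D.U j ⊓ D.U k := le_inf hij (hjk.trans inf_le_right)
  exact congrArg (fun L : LocalHom (D.N i) (D.N k) (D.U i ⊓ D.U j ⊓ D.U k) => L.app W hW x)
    (D.cocycle i j k)

lemma le_ij (V : X.Opens) (i j : D.ι) : V ⊓ D.U i ⊓ D.U j ≤ D.U i ⊓ D.U j :=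
  le_inf (inf_le_left.trans inf_le_right) inf_le_right

lemma le_i (V : X.Opens) (i j : D.ι) : V ⊓ D.U i ⊓ D.U j ≤ V ⊓ D.U i := inf_le_left

lemma le_j (V : X.Opens) (i j : D.ι) : V ⊓ D.U i ⊓ D.U j ≤ V ⊓ D.U j :=
  le_inf (inf_le_left.trans inf_le_left) inf_le_right

/-- Compatible families: the sections of the glued module over `V`. -/
def secs (V : X.Opens) : AddSubgroup (∀ i, Γ(D.N i, V ⊓ D.U i)) where
  carrier := {s | ∀ i j, (D.φ i j).app (V ⊓ D.U i ⊓ D.U j) (D.le_ij V i j)
    (res (D.N i) (D.le_i V i j) (s i)) = res (D.N j) (D.le_j V i j) (s j)}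
  zero_mem' := by intro i j; simp
  add_mem' := by
    intro a b ha hb i j
    simp only [Pi.add_apply, map_add, ha i j, hb i j]
  neg_mem' := by
    intro a ha i j
    simp only [Pi.neg_apply, map_neg, ha i j]

/-- Restriction of compatible families. -/
noncomputable def secsRes {V' V : X.Opens} (h : V' ≤ V) : D.secs V →+ D.secs V' where
  toFun s := ⟨fun i => res (D.N i) (inf_le_inf_right _ h) (s.1 i), by
    intro i j
    have hs := s.2 i j
    have h1 : V' ⊓ D.U i ⊓ D.U j ≤ V ⊓ D.U i ⊓ D.U j :=
      inf_le_inf_right _ (inf_le_inf_right _ h)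
    have := congrArg (res (D.N j) h1) hs
    rw [(D.φ i j).app_res, res_res, res_res] at this
    rw [res_res, res_res]
    exact this⟩
  map_zero' := by
    apply Subtype.ext; funext i; simp
  map_add' a b := by
    apply Subtype.ext; funext i; simp

@[simp] lemma secsRes_apply {V' V : X.Opens} (h : V' ≤ V) (s : D.secs V) (i : D.ι) :
    (D.secsRes h s).1 i = res (D.N i) (inf_le_inf_right _ h) (s.1 i) := rfl

/-- The abelian presheaf underlying the glued module. -/
noncomputable def abPresheaf : (Opens X)ᵒᵖ ⥤ Ab.{u} where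
  obj V := AddCommGrpCat.of (D.secs V.unop)
  map {V V'} f := AddCommGrpCat.ofHom (D.secsRes (leOfHom f.unop))
  map_id V := by
    ext s i
    simp
  map_comp {V V' V''} f g := by
    ext s i
    simp

/-- Scalar multiplication on compatible families. -/
noncomputable def secsSMul (V : X.Opens) (r : Γ(X, V)) (s : D.secs V) : D.secs V :=
  ⟨fun i => resO X (inf_le_left : V ⊓ D.U i ≤ V) r • s.1 i, by
    intro i j
    have hs := s.2 i j
    rw [res_smul, res_smul, (D.φ i j).app_smul, hs, resO_resO, resO_resO]⟩

@[simp] lemma secsSMul_apply (V : X.Opens) (r : Γ(X, V)) (s : D.secs V) (i : D.ι) :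
    (D.secsSMul V r s).1 i = resO X (inf_le_left : V ⊓ D.U i ≤ V) r • s.1 i := rfl

lemma secsRes_smul {V' V : X.Opens} (h : V' ≤ V) (r : Γ(X, V)) (s : D.secs V) :
    D.secsRes h (D.secsSMul V r s) = D.secsSMul V' (resO X h r) (D.secsRes h s) := by
  apply Subtype.ext; funext i
  simp only [secsRes_apply, secsSMul_apply]
  rw [res_smul, resO_resO, resO_resO]

/-- The module structure on compatible families. -/
@[reducible] noncomputable def secsModule (V : X.Opens) : Module Γ(X, V) (D.secs V) where
  smul := D.secsSMul V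
  one_smul s := by
    apply Subtype.ext; funext i
    change (D.secsSMul V 1 s).1 i = s.1 i
    simp
  mul_smul a b s := by
    apply Subtype.ext; funext i
    change (D.secsSMul V (a * b) s).1 i = (D.secsSMul V a (D.secsSMul V b s)).1 i
    simp [mul_smul]
  smul_zero a := by
    apply Subtype.ext; funext i
    change (D.secsSMul V a 0).1 i = 0
    simp
  smul_add a s t := by
    apply Subtype.ext; funext i
    change (D.secsSMul V a (s + t)).1 i = (D.secsSMul V a s).1 i + (D.secsSMul V a t).1 i
    simp
  add_smul a b s := by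
    apply Subtype.ext; funext i
    change (D.secsSMul V (a + b) s).1 i = (D.secsSMul V a s).1 i + (D.secsSMul V b s).1 i
    simp [add_smul]
  zero_smul s := by
    apply Subtype.ext; funext i
    change (D.secsSMul V 0 s).1 i = 0
    simp

/-- The presheaf of modules underlying the glued module. -/
noncomputable def presheafOfModules : PresheafOfModules X.ringCatSheaf.obj :=
  letI : ∀ V : (Opens X)ᵒᵖ, Module (X.ringCatSheaf.obj.obj V) (D.abPresheaf.obj V) :=
    fun V => D.secsModule V.unop
  PresheafOfModules.ofPresheaf D.abPresheaf (by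
    intro V V' f r s
    exact D.secsRes_smul (leOfHom f.unop) r s)

lemma abPresheaf_isSheaf : TopCat.Presheaf.IsSheaf (X := X.toTopCat) D.abPresheaf := by
  rw [TopCat.Presheaf.isSheaf_iff_isSheafUniqueGluing]
  intro κ V sf hsf
  -- componentwise compatibility
  have hcomp : ∀ (a b : κ) (i : D.ι),
      res (D.N i) (inf_le_inf_right _ inf_le_left : V a ⊓ V b ⊓ D.U i ≤ V a ⊓ D.U i) ((sf a).1 i) =
      res (D.N i) (inf_le_inf_right _ inf_le_right : V a ⊓ V b ⊓ D.U i ≤ V b ⊓ D.U i)
        ((sf b).1 i) := by
    intro a b i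
    have := congrArg (fun s : D.secs (V a ⊓ V b) => s.1 i) (hsf a b)
    exact this
  -- glue each component
  have hglue : ∀ i : D.ι, ∃ s : Γ(D.N i, iSup V ⊓ D.U i), ∀ a,
      res (D.N i) (inf_le_inf_right _ (le_iSup V a)) s = (sf a).1 i := by
    intro i
    refine res_glue (D.N i) (fun a => V a ⊓ D.U i) (iSup V ⊓ D.U i)
      (fun a => inf_le_inf_right _ (le_iSup V a)) ?_ (fun a => (sf a).1 i) ?_
    · rw [iSup_inf_eq]
    · intro a b
      have h1 : (V a ⊓ D.U i) ⊓ (V b ⊓ D.U i) ≤ V a ⊓ V b ⊓ D.U i :=
        le_inf (le_inf (inf_le_left.trans inf_le_left) (inf_le_right.trans inf_le_left))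
          (inf_le_left.trans inf_le_right)
      have := congrArg (res (D.N i) h1) (hcomp a b i)
      rw [res_res, res_res] at this
      exact this
  choose s hs using hglue
  have hmem : s ∈ D.secs (iSup V) := by
    intro i j
    refine res_ext (D.N j) (fun a => V a ⊓ D.U i ⊓ D.U j) _
      (fun a => inf_le_inf_right _ (inf_le_inf_right _ (le_iSup V a))) ?_ _ _ ?_
    · rw [iSup_inf_eq, iSup_inf_eq]
    · intro a
      rw [(D.φ i j).app_res, res_res, res_res]
      have h1 := (sf a).2 i j
      have e1 : res (D.N i) (D.le_i (V a) i j) ((sf a).1 i) =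
          res (D.N i) ((D.le_i (V a) i j).trans (inf_le_inf_right _ (le_iSup V a))) (s i) := by
        rw [← hs i a, res_res]
      have e2 : res (D.N j) (D.le_j (V a) i j) ((sf a).1 j) =
          res (D.N j) ((D.le_j (V a) i j).trans (inf_le_inf_right _ (le_iSup V a))) (s j) := by
        rw [← hs j a, res_res]
      rw [e1, e2] at h1
      exact h1
  refine ⟨⟨s, hmem⟩, ?_, ?_⟩
  · intro a
    apply Subtype.ext; funext i
    exact hs i a
  · intro t ht
    apply Subtype.ext; funext i
    refine res_ext (D.N i) (fun a => V a ⊓ D.U i) _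
      (fun a => inf_le_inf_right _ (le_iSup V a)) ?_ _ _ ?_
    · rw [iSup_inf_eq]
    · intro a
      rw [hs i a]
      have := congrArg (fun s : D.secs (V a) => s.1 i) (ht a)
      exact this

/-- The glued module. -/
noncomputable def glue : X.Modules :=
  (⟨D.presheafOfModules, D.abPresheaf_isSheaf⟩ : SheafOfModules X.ringCatSheaf)

/-- The sections of the glued module are the compatible families (a definitional equality, made
explicit). -/
noncomputable def glueSecs (V : X.Opens) : Γ(D.glue, V) ≃+ D.secs V := AddEquiv.refl _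

lemma glueSecs_res {V' V : X.Opens} (h : V' ≤ V) (s : Γ(D.glue, V)) :
    D.glueSecs V' (res D.glue h s) = D.secsRes h (D.glueSecs V s) := rfl

lemma glueSecs_smul (V : X.Opens) (r : Γ(X, V)) (s : Γ(D.glue, V)) :
    D.glueSecs V (r • s) = D.secsSMul V r (D.glueSecs V s) := rfl

end Datum

end Fermat.Agent.Jac.ModGlue88
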