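/-
M1b support (JAC programme, S25): the glued module restricts to the pieces.
-/
import Fermat.Agent.Jac.ModGlue88.Glue

set_option autoImplicit false

universe u

open CategoryTheory AlgebraicGeometry TopologicalSpace Opposite

namespace Fermat.Agent.Jac.ModGlue88

variable {X : Scheme.{u}}

namespace Datum

variable (D : Datum X)

/-- The projection of the glued module to the `k`-th piece, over `U k`. -/
noncomputable def proj (k : D.ι) : LocalHom D.glue (D.N k) (D.U k) where
  app W hW :=
    (res (D.N k) (le_inf le_rfl hW : W ≤ W ⊓ D.U k)).comp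
      ((Pi.evalAddMonoidHom (fun i => Γ(D.N i, W ⊓ D.U i)) k).comp
        ((D.secs W).subtype.comp (D.glueSecs W).toAddMonoidHom))
  app_res W' W hW h s := by
    change res (D.N k) h (res (D.N k) _ ((D.glueSecs W s).1 k)) =
      res (D.N k) _ ((D.glueSecs W' (res D.glue h s)).1 k)
    rw [glueSecs_res, secsRes_apply, res_res, res_res]
  app_smul W hW r s := by
    change res (D.N k) _ ((D.glueSecs W (r • s)).1 k) = r • res (D.N k) _ ((D.glueSecs W s).1 k)
    rw [glueSecs_smul, secsSMul_apply, res_smul, resO_resO, resO_self]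

lemma proj_app (k : D.ι) (W : X.Opens) (hW : W ≤ D.U k) (s : Γ(D.glue, W)) :
    (D.proj k).app W hW s =
      res (D.N k) (le_inf le_rfl hW : W ≤ W ⊓ D.U k) ((D.glueSecs W s).1 k) := rfl

/-- The compatible family generated by a section of the `k`-th piece over `W ≤ U k`. -/
noncomputable def liftSecs (k : D.ι) (W : X.Opens) (hW : W ≤ D.U k) (t : Γ(D.N k, W)) :
    D.secs W :=
  ⟨fun i => (D.φ k i).app (W ⊓ D.U i) (le_inf (inf_le_left.trans hW) inf_le_right)
    (res (D.N k) inf_le_left t), by
    intro i j
    rw [(D.φ k i).app_res, (D.φ k j).app_res, res_res, res_res]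
    exact D.cocycle_app k i j _ _ _ _ _⟩

@[simp] lemma liftSecs_apply (k : D.ι) (W : X.Opens) (hW : W ≤ D.U k) (t : Γ(D.N k, W))
    (i : D.ι) : (D.liftSecs k W hW t).1 i =
      (D.φ k i).app (W ⊓ D.U i) (le_inf (inf_le_left.trans hW) inf_le_right)
        (res (D.N k) inf_le_left t) := rfl

/-- The inclusion of the `k`-th piece into the glued module, over `U k`. -/
noncomputable def lift (k : D.ι) : LocalHom (D.N k) D.glue (D.U k) where
  app W hW :=
    { toFun := fun t => (D.glueSecs W).symm (D.liftSecs k W hW t)
      map_zero' := by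
        apply (D.glueSecs W).injective
        rw [AddEquiv.apply_symm_apply, map_zero]
        apply Subtype.ext; funext i
        simp
      map_add' := by
        intro t t'
        apply (D.glueSecs W).injective
        rw [AddEquiv.apply_symm_apply, map_add, AddEquiv.apply_symm_apply,
          AddEquiv.apply_symm_apply]
        apply Subtype.ext; funext i
        simp }
  app_res W' W hW h t := by
    apply (D.glueSecs W').injective
    change D.glueSecs W' (res D.glue h ((D.glueSecs W).symm (D.liftSecs k W hW t))) =
      D.glueSecs W' ((D.glueSecs W').symm (D.liftSecs k W' (h.trans hW) (res (D.N k) h t)))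
    rw [glueSecs_res, AddEquiv.apply_symm_apply, AddEquiv.apply_symm_apply]
    apply Subtype.ext; funext i
    rw [secsRes_apply, liftSecs_apply, liftSecs_apply, (D.φ k i).app_res, res_res, res_res]
  app_smul W hW r t := by
    apply (D.glueSecs W).injective
    change D.glueSecs W ((D.glueSecs W).symm (D.liftSecs k W hW (r • t))) =
      D.glueSecs W (r • (D.glueSecs W).symm (D.liftSecs k W hW t))
    rw [glueSecs_smul, AddEquiv.apply_symm_apply, AddEquiv.apply_symm_apply]
    apply Subtype.ext; funext i
    rw [secsSMul_apply, liftSecs_apply, liftSecs_apply, res_smul, (D.φ k i).app_smul]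

lemma lift_app (k : D.ι) (W : X.Opens) (hW : W ≤ D.U k) (t : Γ(D.N k, W)) :
    (D.lift k).app W hW t = (D.glueSecs W).symm (D.liftSecs k W hW t) := rfl

lemma lift_comp_proj (k : D.ι) : (D.lift k).comp (D.proj k) = LocalHom.id (D.N k) (D.U k) := by
  ext W hW t
  rw [LocalHom.comp_app, lift_app, proj_app, AddEquiv.apply_symm_apply, liftSecs_apply,
    D.φ_self_app, res_res, res_self, LocalHom.id_app]

lemma proj_comp_lift (k : D.ι) : (D.proj k).comp (D.lift k) = LocalHom.id D.glue (D.U k) := by
  ext W hW s
  rw [LocalHom.comp_app, lift_app, proj_app, LocalHom.id_app]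
  apply (D.glueSecs W).injective
  rw [AddEquiv.apply_symm_apply]
  apply Subtype.ext; funext i
  rw [liftSecs_apply, res_res]
  have hs := (D.glueSecs W s).2 k i
  have h1 : W ⊓ D.U i ≤ W ⊓ D.U k ⊓ D.U i :=
    le_inf (le_inf inf_le_left (inf_le_left.trans hW)) inf_le_right
  have := congrArg (res (D.N i) h1) hs
  rw [(D.φ k i).app_res, res_res, res_res, res_self] at this
  exact this

/-- The projections are compatible with the transition morphisms. -/
lemma proj_comp_φ (k l : D.ι) :
    ((D.proj k).restrict (inf_le_left : D.U k ⊓ D.U l ≤ D.U k)).comp (D.φ k l) =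
      (D.proj l).restrict (inf_le_right : D.U k ⊓ D.U l ≤ D.U l) := by
  ext W hW s
  rw [LocalHom.comp_app, LocalHom.restrict_app, LocalHom.restrict_app, proj_app, proj_app]
  have hs := (D.glueSecs W s).2 k l
  have h1 : W ≤ W ⊓ D.U k ⊓ D.U l := le_inf (le_inf le_rfl (hW.trans inf_le_left))
    (hW.trans inf_le_right)
  have := congrArg (res (D.N l) h1) hs
  rw [(D.φ k l).app_res, res_res, res_res] at this
  exact this

/-- The glued module restricted to `U k` is the `k`-th piece restricted to `U k`. -/
noncomputable def glueIso (k : D.ι) : D.glue.restrict (D.U k).ι ≅ (D.N k).restrict (D.U k).ι where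
  hom := LocalHom.toRestrictι (D.U k) (D.proj k)
  inv := LocalHom.toRestrictι (D.U k) (D.lift k)
  hom_inv_id := by
    rw [← LocalHom.toRestrictι_comp, proj_comp_lift, LocalHom.toRestrictι_id]
  inv_hom_id := by
    rw [← LocalHom.toRestrictι_comp, lift_comp_proj, LocalHom.toRestrictι_id]

@[simp] lemma ofRestrictι_glueIso_hom (k : D.ι) :
    LocalHom.ofRestrictι (D.U k) (D.glueIso k).hom = D.proj k :=
  LocalHom.ofRestrictι_toRestrictι _ _

@[simp] lemma ofRestrictι_glueIso_inv (k : D.ι) :
    LocalHom.ofRestrictι (D.U k) (D.glueIso k).inv = D.lift k :=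
  LocalHom.ofRestrictι_toRestrictι _ _

end Datum

end Fermat.Agent.Jac.ModGlue88
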