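/-
M1b support (JAC programme, S25): existence form of the object gluing, in the shape requested by
the consumer R1 (strict `LocalHom` form with global carrier objects).
-/
import Fermat.Agent.Jac.ModGlue88.GlueIso

set_option autoImplicit false

universe u

open CategoryTheory AlgebraicGeometry TopologicalSpace Opposite

namespace Fermat.Agent.Jac.ModGlue88

/-- Objects glue: a family of modules `E i` on `X` with transition local isomorphisms over the
overlaps `U i ⊓ U j` satisfying the cocycle condition comes from a module `L` on `X`, locally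
isomorphic to the `E i` over `U i`, compatibly with the transitions. -/
theorem exists_glue_obj {X : Scheme.{u}} {ι : Type u} (U : ι → X.Opens) (E : ι → X.Modules)
    (φ : ∀ i j, LocalHom (E i) (E j) (U i ⊓ U j))
    (hid : ∀ i, φ i i = LocalHom.id (E i) (U i ⊓ U i))
    (hcoc : ∀ i j k,
      ((φ i j).restrict (inf_le_left : U i ⊓ U j ⊓ U k ≤ U i ⊓ U j)).comp
        ((φ j k).restrict (le_inf (inf_le_left.trans inf_le_right) inf_le_right :
          U i ⊓ U j ⊓ U k ≤ U j ⊓ U k)) =
      (φ i k).restrict (le_inf (inf_le_left.trans inf_le_left) inf_le_right :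
          U i ⊓ U j ⊓ U k ≤ U i ⊓ U k)) :
    ∃ (L : X.Modules) (β : ∀ i, LocalHom L (E i) (U i)) (β' : ∀ i, LocalHom (E i) L (U i)),
      (∀ i, (β i).comp (β' i) = LocalHom.id L (U i)) ∧
      (∀ i, (β' i).comp (β i) = LocalHom.id (E i) (U i)) ∧
      ∀ i j, ((β i).restrict (inf_le_left : U i ⊓ U j ≤ U i)).comp (φ i j) =
        (β j).restrict (inf_le_right : U i ⊓ U j ≤ U j) := by
  let D : Datum X := { ι := ι, U := U, N := E, φ := φ, φ_self := hid, cocycle := hcoc }
  exact ⟨D.glue, D.proj, D.lift, D.proj_comp_lift, D.lift_comp_proj, D.proj_comp_φ⟩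

end Fermat.Agent.Jac.ModGlue88
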