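/-
M1a support (JAC programme, S25): the pullback-pushforward adjunction for modules, made local
and sectionwise.

For an arbitrary morphism `h : T ⟶ X`, an open `W` of `X`, `M : X.Modules`, `B : T.Modules`,
local morphisms `(pullback h).obj M ⟶ B` over `h ⁻¹ᵁ W` correspond bijectively to local
morphisms `M ⟶ (pushforward h).obj B` over `W` (`LocalHom.adjEquiv`), by the explicit formula
`F ↦ (x ↦ F (unitSec x))`.  The proof goes through the extension `extMod B W'` (pushforward of
the restriction to an open), which turns local morphisms into global ones, and the global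
adjunction.  No pseudofunctor coherence is used.

Consequence: local morphisms (and local isomorphisms) can be pulled back along `h`
(`LocalHom.pullbackAlong`, `LocalIso.pullbackAlong`), the pullback being characterised by
`(f.pullbackAlong h) (unitSec x) = unitSec (f x)` and by the uniqueness principle
`LocalHom.ext_unitSec`; it is compatible with identities, composition, restriction to smaller
opens, global morphisms (`ofHom f₀ ↦ ofHom ((pullback h).map f₀)`) and scalars
(`scalar r ↦ scalar (h.app W r)`).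
-/
import Fermat.Agent.Jac.ModGlue88.LocTriv

set_option autoImplicit false

universe u

open CategoryTheory AlgebraicGeometry TopologicalSpace Opposite

namespace Fermat.Agent.Jac.ModGlue88

open Scheme.Modules

variable {X T : Scheme.{u}} (h : T ⟶ X)

/-- Sections of a pushforward (a definitional equality, made explicit). -/
noncomputable def pfSecs (B : T.Modules) (W : X.Opens) :
    Γ(B, h ⁻¹ᵁ W) ≃+ Γ((pushforward h).obj B, W) := AddEquiv.refl _

lemma pfSecs_res (B : T.Modules) {W' W : X.Opens} (hW : W' ≤ W) (y : Γ(B, h ⁻¹ᵁ W)) :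
    pfSecs h B W' (res B (h.preimage_mono hW) y) =
      res ((pushforward h).obj B) hW (pfSecs h B W y) := rfl

lemma pfSecs_symm_res (B : T.Modules) {W' W : X.Opens} (hW : W' ≤ W)
    (z : Γ((pushforward h).obj B, W)) :
    (pfSecs h B W').symm (res ((pushforward h).obj B) hW z) =
      res B (h.preimage_mono hW) ((pfSecs h B W).symm z) := rfl

lemma pfSecs_smul (B : T.Modules) (W : X.Opens) (r : Γ(X, W)) (y : Γ(B, h ⁻¹ᵁ W)) :
    pfSecs h B W (h.app W r • y) = r • pfSecs h B W y := rfl

lemma pfSecs_symm_smul (B : T.Modules) (W : X.Opens) (r : Γ(X, W))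
    (z : Γ((pushforward h).obj B, W)) :
    (pfSecs h B W).symm (r • z) = h.app W r • (pfSecs h B W).symm z := rfl

lemma pfSecs_map {B B' : T.Modules} (f : B ⟶ B') (W : X.Opens) (y : Γ(B, h ⁻¹ᵁ W)) :
    pfSecs h B' W (f.app (h ⁻¹ᵁ W) y) = ((pushforward h).map f).app W (pfSecs h B W y) := rfl

/-- The unit of the pullback-pushforward adjunction on sections:
`Γ(M, W) → Γ(h^* M, h⁻¹ W)`. -/
noncomputable def unitSec (M : X.Modules) (W : X.Opens) :
    Γ(M, W) →+ Γ((pullback h).obj M, h ⁻¹ᵁ W) :=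
  (pfSecs h ((pullback h).obj M) W).symm.toAddMonoidHom.comp
    (((pullbackPushforwardAdjunction h).unit.app M).app W).hom

lemma unitSec_res (M : X.Modules) {W' W : X.Opens} (hW : W' ≤ W) (x : Γ(M, W)) :
    res ((pullback h).obj M) (h.preimage_mono hW) (unitSec h M W x) =
      unitSec h M W' (res M hW x) := by
  unfold unitSec
  simp only [AddMonoidHom.comp_apply, AddEquiv.coe_toAddMonoidHom]
  rw [← pfSecs_symm_res h _ hW]
  congr 1
  exact hom_app_res ((pullbackPushforwardAdjunction h).unit.app M) hW x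

lemma unitSec_smul (M : X.Modules) (W : X.Opens) (r : Γ(X, W)) (x : Γ(M, W)) :
    unitSec h M W (r • x) = h.app W r • unitSec h M W x := by
  unfold unitSec
  simp only [AddMonoidHom.comp_apply, AddEquiv.coe_toAddMonoidHom]
  rw [← pfSecs_symm_smul]
  congr 1
  exact Scheme.Modules.Hom.app_smul ((pullbackPushforwardAdjunction h).unit.app M) r x

lemma unitSec_map {M N : X.Modules} (f : M ⟶ N) (W : X.Opens) (x : Γ(M, W)) :
    unitSec h N W (f.app W x) = ((pullback h).map f).app (h ⁻¹ᵁ W) (unitSec h M W x) := by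
  have nat := (pullbackPushforwardAdjunction h).unit.naturality f
  have := congrArg (fun g => (Scheme.Modules.Hom.app g W) x) nat
  exact this

section Ext

variable {T : Scheme.{u}}

/-- The extension to `T` of the restriction of `B` to the open `W'` (pushforward of the
restriction). -/
noncomputable def extMod (B : T.Modules) (W' : T.Opens) : T.Modules :=
  (pushforward W'.ι).obj (B.restrict W'.ι)

/-- Sections of the extension (a definitional equality, made explicit). -/
noncomputable def extSecs (B : T.Modules) (W' V : T.Opens) :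
    Γ(B, W'.ι ''ᵁ W'.ι ⁻¹ᵁ V) ≃+ Γ(extMod B W', V) := AddEquiv.refl _

lemma imgPre_mono (W' : T.Opens) {V' V : T.Opens} (hV : V' ≤ V) :
    W'.ι ''ᵁ W'.ι ⁻¹ᵁ V' ≤ W'.ι ''ᵁ W'.ι ⁻¹ᵁ V :=
  W'.ι.image_mono (W'.ι.preimage_mono hV)

lemma imgPre_le (W' V : T.Opens) : W'.ι ''ᵁ W'.ι ⁻¹ᵁ V ≤ V := W'.ι.image_preimage_le V

lemma imgPre_le' (W' V : T.Opens) : W'.ι ''ᵁ W'.ι ⁻¹ᵁ V ≤ W' := W'.ι_image_le _

lemma le_imgPre (W' : T.Opens) {V : T.Opens} (hV : V ≤ W') : V ≤ W'.ι ''ᵁ W'.ι ⁻¹ᵁ V := by
  rw [W'.ι.image_preimage_eq_opensRange_inf, W'.opensRange_ι]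
  exact le_inf hV le_rfl

lemma extSecs_res (B : T.Modules) (W' : T.Opens) {V' V : T.Opens} (hV : V' ≤ V)
    (y : Γ(B, W'.ι ''ᵁ W'.ι ⁻¹ᵁ V)) :
    extSecs B W' V' (res B (imgPre_mono W' hV) y) = res (extMod B W') hV (extSecs B W' V y) := rfl

lemma extSecs_symm_res (B : T.Modules) (W' : T.Opens) {V' V : T.Opens} (hV : V' ≤ V)
    (z : Γ(extMod B W', V)) :
    (extSecs B W' V').symm (res (extMod B W') hV z) =
      res B (imgPre_mono W' hV) ((extSecs B W' V).symm z) := rfl

lemma extSecs_smul (B : T.Modules) (W' V : T.Opens) (r : Γ(T, V))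
    (y : Γ(B, W'.ι ''ᵁ W'.ι ⁻¹ᵁ V)) :
    extSecs B W' V (resO T (imgPre_le W' V) r • y) = r • extSecs B W' V y := by
  have h1 : r • extSecs B W' V y =
      extSecs B W' V ((W'.ι.appIso (W'.ι ⁻¹ᵁ V)).inv (W'.ι.app V r) • y) := rfl
  rw [h1]
  congr 2
  have := W'.ι.app_appIso_inv V
  exact (congrArg (fun g => g r) this).symm

lemma extSecs_symm_smul (B : T.Modules) (W' V : T.Opens) (r : Γ(T, V))
    (z : Γ(extMod B W', V)) :
    (extSecs B W' V).symm (r • z) = resO T (imgPre_le W' V) r • (extSecs B W' V).symm z := by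
  apply (extSecs B W' V).injective
  rw [AddEquiv.apply_symm_apply, extSecs_smul, AddEquiv.apply_symm_apply]

variable {A B : T.Modules} {W' : T.Opens}

/-- A local morphism `A ⟶ B` over `W'` as a global morphism from `A` to the extension of `B`. -/
noncomputable def LocalHom.toExt (F : LocalHom A B W') : A ⟶ extMod B W' :=
  LocalHom.toHom
    { app := fun V _ => (extSecs B W' V).toAddMonoidHom.comp
        ((F.app (W'.ι ''ᵁ W'.ι ⁻¹ᵁ V) (imgPre_le' W' V)).comp (res A (imgPre_le W' V)))
      app_res := by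
        intro V' V _ hV y
        simp only [AddMonoidHom.comp_apply, AddEquiv.coe_toAddMonoidHom]
        rw [← extSecs_res B W' hV, F.app_res, res_res, res_res]
      app_smul := by
        intro V _ r y
        simp only [AddMonoidHom.comp_apply, AddEquiv.coe_toAddMonoidHom]
        rw [res_smul, F.app_smul, extSecs_smul] }

lemma LocalHom.toExt_app (F : LocalHom A B W') (V : T.Opens) (y : Γ(A, V)) :
    F.toExt.app V y = extSecs B W' V
      (F.app (W'.ι ''ᵁ W'.ι ⁻¹ᵁ V) (imgPre_le' W' V) (res A (imgPre_le W' V) y)) := rfl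

/-- A global morphism from `A` to the extension of `B` as a local morphism `A ⟶ B` over `W'`. -/
noncomputable def LocalHom.ofExt (f : A ⟶ extMod B W') : LocalHom A B W' where
  app V hV :=
    { toFun := fun y => res B (le_imgPre W' hV) ((extSecs B W' V).symm (f.app V y))
      map_zero' := by simp
      map_add' := by intro a b; simp }
  app_res V' V hV h y := by
    change res B h (res B (le_imgPre W' hV) ((extSecs B W' V).symm (f.app V y))) =
      res B (le_imgPre W' (h.trans hV)) ((extSecs B W' V').symm (f.app V' (res A h y)))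
    rw [← hom_app_res f h y, extSecs_symm_res, res_res, res_res]
  app_smul V hV r y := by
    change res B (le_imgPre W' hV) ((extSecs B W' V).symm (f.app V (r • y))) =
      r • res B (le_imgPre W' hV) ((extSecs B W' V).symm (f.app V y))
    rw [Scheme.Modules.Hom.app_smul f r y, extSecs_symm_smul, res_smul, resO_resO, resO_self]

lemma LocalHom.ofExt_app (f : A ⟶ extMod B W') (V : T.Opens) (hV : V ≤ W') (y : Γ(A, V)) :
    (LocalHom.ofExt f).app V hV y =
      res B (le_imgPre W' hV) ((extSecs B W' V).symm (f.app V y)) := rfl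

@[simp] lemma LocalHom.ofExt_toExt (F : LocalHom A B W') : LocalHom.ofExt F.toExt = F := by
  ext V hV y
  rw [LocalHom.ofExt_app, LocalHom.toExt_app, AddEquiv.symm_apply_apply, F.app_res, res_res,
    res_self]

@[simp] lemma LocalHom.toExt_ofExt (f : A ⟶ extMod B W') : (LocalHom.ofExt f).toExt = f := by
  apply Scheme.Modules.hom_ext
  intro V
  ext y
  rw [LocalHom.toExt_app, LocalHom.ofExt_app, ← hom_app_res f (imgPre_le W' V) y,
    extSecs_symm_res, res_res]
  apply (extSecs B W' V).symm.injective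
  rw [AddEquiv.symm_apply_apply]
  exact res_self B _ _

end Ext

section Adj

variable {X T : Scheme.{u}} (h : T ⟶ X) {M : X.Modules} {B : T.Modules} {W : X.Opens}

/-- The transpose of a local morphism `h^* M ⟶ B` over `h⁻¹ W`: the local morphism
`M ⟶ h_* B` over `W` given by `x ↦ F (unitSec x)`. -/
noncomputable def LocalHom.adjTo (F : LocalHom ((pullback h).obj M) B (h ⁻¹ᵁ W)) :
    LocalHom M ((pushforward h).obj B) W where
  app W'' hW'' := (pfSecs h B W'').toAddMonoidHom.comp
      ((F.app (h ⁻¹ᵁ W'') (h.preimage_mono hW'')).comp (unitSec h M W''))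
  app_res := by
    intro W₁ W₂ hW₂ hle x
    simp only [AddMonoidHom.comp_apply, AddEquiv.coe_toAddMonoidHom]
    rw [← pfSecs_res h B hle, F.app_res, unitSec_res]
  app_smul := by
    intro W₂ hW₂ r x
    simp only [AddMonoidHom.comp_apply, AddEquiv.coe_toAddMonoidHom]
    rw [unitSec_smul, F.app_smul, pfSecs_smul]

lemma LocalHom.adjTo_app (F : LocalHom ((pullback h).obj M) B (h ⁻¹ᵁ W)) (W'' : X.Opens)
    (hW'' : W'' ≤ W) (x : Γ(M, W'')) :
    (F.adjTo h).app W'' hW'' x =
      pfSecs h B W'' (F.app (h ⁻¹ᵁ W'') (h.preimage_mono hW'') (unitSec h M W'' x)) := rfl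

/-- The global adjunction on sections: the transpose of `f : h^* M ⟶ B` is
`x ↦ f (unitSec x)`. -/
lemma homEquiv_app (f : (pullback h).obj M ⟶ B) (W'' : X.Opens) (x : Γ(M, W'')) :
    (((pullbackPushforwardAdjunction h).homEquiv M B) f).app W'' x =
      pfSecs h B W'' (f.app (h ⁻¹ᵁ W'') (unitSec h M W'' x)) := by
  rw [Adjunction.homEquiv_unit]
  rfl


lemma imgPre_le_preimage_inf (W W'' : X.Opens) :
    (h ⁻¹ᵁ W).ι ''ᵁ (h ⁻¹ᵁ W).ι ⁻¹ᵁ (h ⁻¹ᵁ W'') ≤ h ⁻¹ᵁ (W ⊓ W'') :=
  le_inf (imgPre_le' (h ⁻¹ᵁ W) (h ⁻¹ᵁ W'')) (imgPre_le (h ⁻¹ᵁ W) (h ⁻¹ᵁ W''))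

/-- KEY formula: the extension of a local morphism, evaluated on unit sections, is computed by
the transpose. -/
lemma LocalHom.toExt_unitSec (F : LocalHom ((pullback h).obj M) B (h ⁻¹ᵁ W)) (W'' : X.Opens)
    (x : Γ(M, W'')) :
    F.toExt.app (h ⁻¹ᵁ W'') (unitSec h M W'' x) =
      extSecs B (h ⁻¹ᵁ W) (h ⁻¹ᵁ W'') (res B (imgPre_le_preimage_inf h W W'')
        ((pfSecs h B (W ⊓ W'')).symm
          ((F.adjTo h).app (W ⊓ W'') inf_le_left (res M inf_le_right x)))) := by
  rw [LocalHom.toExt_app, LocalHom.adjTo_app, AddEquiv.symm_apply_apply,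
    ← unitSec_res h M inf_le_right x, F.app_res, res_res]

lemma LocalHom.adjTo_injective :
    Function.Injective (LocalHom.adjTo h (M := M) (B := B) (W := W)) := by
  intro F F' hFF'
  have key : F.toExt = F'.toExt := by
    apply ((pullbackPushforwardAdjunction h).homEquiv M _).injective
    apply Scheme.Modules.hom_ext
    intro W''
    ext x
    rw [homEquiv_app, homEquiv_app, LocalHom.toExt_unitSec, LocalHom.toExt_unitSec, hFF']
  rw [← LocalHom.ofExt_toExt F, key, LocalHom.ofExt_toExt]

/-- Uniqueness principle: two local morphisms out of a pullback which agree on unit sections are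
equal. -/
lemma LocalHom.ext_unitSec {F F' : LocalHom ((pullback h).obj M) B (h ⁻¹ᵁ W)}
    (hFF' : ∀ (W'' : X.Opens) (hW'' : W'' ≤ W) (x : Γ(M, W'')),
      F.app (h ⁻¹ᵁ W'') (h.preimage_mono hW'') (unitSec h M W'' x) =
        F'.app (h ⁻¹ᵁ W'') (h.preimage_mono hW'') (unitSec h M W'' x)) : F = F' := by
  apply LocalHom.adjTo_injective h
  ext W'' hW'' x
  rw [LocalHom.adjTo_app, LocalHom.adjTo_app, hFF' W'' hW'' x]


/-- Naturality of `h.app` with respect to restriction of functions. -/
lemma app_resO {W₁ W₂ : X.Opens} (hle : W₁ ≤ W₂) (r : Γ(X, W₂)) :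
    h.app W₁ (resO X hle r) = resO T (h.preimage_mono hle) (h.app W₂ r) := by
  have := h.naturality (homOfLE hle).op
  exact congrArg (fun g => g r) this

/-- Auxiliary: the candidate transpose, towards surjectivity of `adjTo`. -/
noncomputable def LocalHom.adjAux (G : LocalHom M ((pushforward h).obj B) W) :
    LocalHom M ((pushforward h).obj (extMod B (h ⁻¹ᵁ W))) ⊤ where
  app W'' _ := (pfSecs h (extMod B (h ⁻¹ᵁ W)) W'').toAddMonoidHom.comp
    ((extSecs B (h ⁻¹ᵁ W) (h ⁻¹ᵁ W'')).toAddMonoidHom.comp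
      ((res B (imgPre_le_preimage_inf h W W'')).comp
        ((pfSecs h B (W ⊓ W'')).symm.toAddMonoidHom.comp
          ((G.app (W ⊓ W'') inf_le_left).comp (res M inf_le_right)))))
  app_res := by
    intro W₁ W₂ _ hle x
    change res _ hle (pfSecs h (extMod B (h ⁻¹ᵁ W)) W₂
        (extSecs B (h ⁻¹ᵁ W) (h ⁻¹ᵁ W₂) (res B (imgPre_le_preimage_inf h W W₂)
          ((pfSecs h B (W ⊓ W₂)).symm (G.app (W ⊓ W₂) inf_le_left (res M inf_le_right x)))))) =
      pfSecs h (extMod B (h ⁻¹ᵁ W)) W₁
        (extSecs B (h ⁻¹ᵁ W) (h ⁻¹ᵁ W₁) (res B (imgPre_le_preimage_inf h W W₁)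
          ((pfSecs h B (W ⊓ W₁)).symm
            (G.app (W ⊓ W₁) inf_le_left (res M inf_le_right (res M hle x))))))
    have e : res M (inf_le_right : W ⊓ W₁ ≤ W₁) (res M hle x) =
        res M (inf_le_inf_left W hle) (res M inf_le_right x) := by rw [res_res, res_res]
    rw [← pfSecs_res h _ hle, ← extSecs_res B _ (h.preimage_mono hle), res_res, e,
      ← G.app_res _ _ inf_le_left (inf_le_inf_left W hle), pfSecs_symm_res, res_res]
  app_smul := by
    intro W'' _ r x
    change pfSecs h (extMod B (h ⁻¹ᵁ W)) W''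
        (extSecs B (h ⁻¹ᵁ W) (h ⁻¹ᵁ W'') (res B (imgPre_le_preimage_inf h W W'')
          ((pfSecs h B (W ⊓ W'')).symm
            (G.app (W ⊓ W'') inf_le_left (res M inf_le_right (r • x)))))) =
      r • pfSecs h (extMod B (h ⁻¹ᵁ W)) W''
        (extSecs B (h ⁻¹ᵁ W) (h ⁻¹ᵁ W'') (res B (imgPre_le_preimage_inf h W W'')
          ((pfSecs h B (W ⊓ W'')).symm (G.app (W ⊓ W'') inf_le_left (res M inf_le_right x)))))
    rw [res_smul, G.app_smul, pfSecs_symm_smul, res_smul, app_resO, resO_resO,
      ← pfSecs_smul, ← extSecs_smul]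

lemma LocalHom.adjAux_app (G : LocalHom M ((pushforward h).obj B) W) (W'' : X.Opens)
    (x : Γ(M, W'')) :
    (G.adjAux h).app W'' le_top x = pfSecs h (extMod B (h ⁻¹ᵁ W)) W''
        (extSecs B (h ⁻¹ᵁ W) (h ⁻¹ᵁ W'') (res B (imgPre_le_preimage_inf h W W'')
          ((pfSecs h B (W ⊓ W'')).symm (G.app (W ⊓ W'') inf_le_left (res M inf_le_right x))))) :=
  rfl


/-- The inverse transpose of a local morphism `M ⟶ h_* B` over `W`. -/
noncomputable def LocalHom.adjFrom (G : LocalHom M ((pushforward h).obj B) W) :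
    LocalHom ((pullback h).obj M) B (h ⁻¹ᵁ W) :=
  LocalHom.ofExt (((pullbackPushforwardAdjunction h).homEquiv M _).symm (G.adjAux h).toHom)

lemma LocalHom.adjTo_adjFrom (G : LocalHom M ((pushforward h).obj B) W) :
    (G.adjFrom h).adjTo h = G := by
  ext W'' hW'' x
  have e : (((pullbackPushforwardAdjunction h).homEquiv M _).symm (G.adjAux h).toHom).app
      (h ⁻¹ᵁ W'') (unitSec h M W'' x) =
      (pfSecs h (extMod B (h ⁻¹ᵁ W)) W'').symm ((G.adjAux h).app W'' le_top x) := by
    rw [← LocalHom.toHom_app, AddEquiv.eq_symm_apply, ← homEquiv_app, Equiv.apply_symm_apply]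
  rw [LocalHom.adjTo_app, LocalHom.adjFrom, LocalHom.ofExt_app, e, LocalHom.adjAux_app,
    AddEquiv.symm_apply_apply, AddEquiv.symm_apply_apply, res_res,
    ← G.app_res _ _ hW'' inf_le_right x, pfSecs_symm_res, res_res, res_self,
    AddEquiv.apply_symm_apply]

lemma LocalHom.adjFrom_adjTo (F : LocalHom ((pullback h).obj M) B (h ⁻¹ᵁ W)) :
    (F.adjTo h).adjFrom h = F :=
  LocalHom.adjTo_injective h (LocalHom.adjTo_adjFrom h _)

/-- **The local adjunction**: local morphisms `h^* M ⟶ B` over `h⁻¹ W` are the same as local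
morphisms `M ⟶ h_* B` over `W`. -/
noncomputable def LocalHom.adjEquiv (M : X.Modules) (B : T.Modules) (W : X.Opens) :
    LocalHom ((pullback h).obj M) B (h ⁻¹ᵁ W) ≃ LocalHom M ((pushforward h).obj B) W where
  toFun F := F.adjTo h
  invFun G := G.adjFrom h
  left_inv F := LocalHom.adjFrom_adjTo h F
  right_inv G := LocalHom.adjTo_adjFrom h G

/-- Characterisation of the inverse transpose on unit sections. -/
lemma LocalHom.adjFrom_unitSec (G : LocalHom M ((pushforward h).obj B) W) (W'' : X.Opens)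
    (hW'' : W'' ≤ W) (x : Γ(M, W'')) :
    (G.adjFrom h).app (h ⁻¹ᵁ W'') (h.preimage_mono hW'') (unitSec h M W'' x) =
      (pfSecs h B W'').symm (G.app W'' hW'' x) := by
  rw [AddEquiv.eq_symm_apply, ← LocalHom.adjTo_app, LocalHom.adjTo_adjFrom]

end Adj


section Pull

variable {X T : Scheme.{u}} (h : T ⟶ X) {M N P : X.Modules} {W W' : X.Opens}

/-- **Pullback of a local morphism** along an arbitrary morphism of schemes. -/
noncomputable def LocalHom.pullbackAlong (f : LocalHom M N W) :
    LocalHom ((pullback h).obj M) ((pullback h).obj N) (h ⁻¹ᵁ W) :=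
  LocalHom.adjFrom h (B := (pullback h).obj N)
    (f.comp (LocalHom.ofHom ((pullbackPushforwardAdjunction h).unit.app N) W))

/-- The pullback of a local morphism is characterised by its values on unit sections. -/
lemma LocalHom.pullbackAlong_unitSec (f : LocalHom M N W) (W'' : X.Opens) (hW'' : W'' ≤ W)
    (x : Γ(M, W'')) :
    (f.pullbackAlong h).app (h ⁻¹ᵁ W'') (h.preimage_mono hW'') (unitSec h M W'' x) =
      unitSec h N W'' (f.app W'' hW'' x) := by
  rw [LocalHom.pullbackAlong, LocalHom.adjFrom_unitSec]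
  rfl

@[simp] lemma LocalHom.pullbackAlong_id :
    (LocalHom.id M W).pullbackAlong h = LocalHom.id ((pullback h).obj M) (h ⁻¹ᵁ W) := by
  apply LocalHom.ext_unitSec h
  intro W'' hW'' x
  rw [LocalHom.pullbackAlong_unitSec h _ W'' hW'' x]
  rfl

lemma LocalHom.pullbackAlong_comp (f : LocalHom M N W) (g : LocalHom N P W) :
    (f.comp g).pullbackAlong h = (f.pullbackAlong h).comp (g.pullbackAlong h) := by
  apply LocalHom.ext_unitSec h
  intro W'' hW'' x
  rw [LocalHom.pullbackAlong_unitSec h _ W'' hW'' x, LocalHom.comp_app, LocalHom.comp_app,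
    LocalHom.pullbackAlong_unitSec h f W'' hW'' x,
    LocalHom.pullbackAlong_unitSec h g W'' hW'' (f.app W'' hW'' x)]

lemma LocalHom.pullbackAlong_restrict (f : LocalHom M N W) (hle : W' ≤ W) :
    (f.restrict hle).pullbackAlong h = (f.pullbackAlong h).restrict (h.preimage_mono hle) := by
  apply LocalHom.ext_unitSec h
  intro W'' hW'' x
  rw [LocalHom.pullbackAlong_unitSec h _ W'' hW'' x, LocalHom.restrict_app,
    LocalHom.restrict_app]
  exact (LocalHom.pullbackAlong_unitSec h f W'' (hW''.trans hle) x).symm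

lemma LocalHom.pullbackAlong_ofHom (f₀ : M ⟶ N) :
    (LocalHom.ofHom f₀ W).pullbackAlong h = LocalHom.ofHom ((pullback h).map f₀) (h ⁻¹ᵁ W) := by
  apply LocalHom.ext_unitSec h
  intro W'' hW'' x
  rw [LocalHom.pullbackAlong_unitSec h _ W'' hW'' x, LocalHom.ofHom_app, LocalHom.ofHom_app,
    unitSec_map]

lemma LocalHom.pullbackAlong_scalar (r : Γ(X, W)) :
    (LocalHom.scalar M W r).pullbackAlong h =
      LocalHom.scalar ((pullback h).obj M) (h ⁻¹ᵁ W) (h.app W r) := by
  apply LocalHom.ext_unitSec h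
  intro W'' hW'' x
  rw [LocalHom.pullbackAlong_unitSec h _ W'' hW'' x, LocalHom.scalar_app, LocalHom.scalar_app,
    unitSec_smul, app_resO]

/-- Pullback of a local isomorphism along an arbitrary morphism of schemes. -/
noncomputable def LocalIso.pullbackAlong (α : LocalIso M N W) :
    LocalIso ((pullback h).obj M) ((pullback h).obj N) (h ⁻¹ᵁ W) where
  hom := α.hom.pullbackAlong h
  inv := α.inv.pullbackAlong h
  hom_inv_id := by rw [← LocalHom.pullbackAlong_comp, α.hom_inv_id, LocalHom.pullbackAlong_id]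
  inv_hom_id := by rw [← LocalHom.pullbackAlong_comp, α.inv_hom_id, LocalHom.pullbackAlong_id]

@[simp] lemma LocalIso.pullbackAlong_hom (α : LocalIso M N W) :
    (α.pullbackAlong h).hom = α.hom.pullbackAlong h := rfl

@[simp] lemma LocalIso.pullbackAlong_inv (α : LocalIso M N W) :
    (α.pullbackAlong h).inv = α.inv.pullbackAlong h := rfl

end Pull

end Fermat.Agent.Jac.ModGlue88
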