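/-
R1 support (JAC programme, S25): separatedness and gluing of rigidified line bundles, in an
abstract retraction form.

Setting: `p : X ⟶ T` with a section `s : T ⟶ X` (`s ≫ p = 𝟙 T`), such that all functions on
`p⁻¹ V` come from `V` (`HΓ`), and an open cover `U` of `T`.  Local isomorphisms over `p⁻¹ V` are
pulled back along the section to local isomorphisms over `V` (`LocalIso.pullSec`, built on the
local adjunction of `LocalAdj.lean`); a local isomorphism can be normalised by a unit so that its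
pullback is prescribed (`LocalIso.exists_normalise`), and normalised isomorphisms are rigid
(`LocalIso.hom_eq_of_pullSec_eq`).  Hence `sep_of_retraction` and `glue_of_retraction`.
-/
import Fermat.Agent.Jac.ModGlue88.LocalAdj
import Fermat.Agent.Jac.ModGlue88.Invertible
import Fermat.Agent.Jac.ModGlue88.GlueObj

set_option autoImplicit false

universe u

open CategoryTheory AlgebraicGeometry TopologicalSpace Opposite

namespace Fermat.Agent.Jac.ModGlue88

open Scheme.Modules

section Retraction

variable {X T : Scheme.{u}} (p : X ⟶ T) (s : T ⟶ X) (hsp : s ≫ p = 𝟙 T)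

include hsp in
lemma preimage_preimage_of_retraction (V : T.Opens) : s ⁻¹ᵁ p ⁻¹ᵁ V = V := by
  rw [← Scheme.Hom.comp_preimage, hsp, Scheme.Hom.id_preimage]

/-- Pullback of functions along the section `s` of `p`, landing on the original open. -/
noncomputable def secApp (V : T.Opens) : Γ(X, p ⁻¹ᵁ V) →+* Γ(T, V) :=
  (resO T (le_of_eq (preimage_preimage_of_retraction p s hsp V).symm)).comp
    (s.app (p ⁻¹ᵁ V)).hom

lemma secApp_apply (V : T.Opens) (r : Γ(X, p ⁻¹ᵁ V)) :
    secApp p s hsp V r =
      resO T (le_of_eq (preimage_preimage_of_retraction p s hsp V).symm) (s.app (p ⁻¹ᵁ V) r) :=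
  rfl

lemma secApp_app (V : T.Opens) (z : Γ(T, V)) : secApp p s hsp V (p.app V z) = z := by
  have h2 := congrArg (fun g => g z) (Scheme.Hom.congr_app hsp V)
  have h3 : s.app (p ⁻¹ᵁ V) (p.app V z) =
      resO T (le_of_eq (preimage_preimage_of_retraction p s hsp V)) z := h2
  rw [secApp_apply, h3, resO_resO, resO_self]

lemma secApp_resO {V' V : T.Opens} (hle : V' ≤ V) (r : Γ(X, p ⁻¹ᵁ V)) :
    secApp p s hsp V' (resO X (p.preimage_mono hle) r) = resO T hle (secApp p s hsp V r) := by
  rw [secApp_apply, secApp_apply, app_resO, resO_resO, resO_resO]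

include hsp in
lemma app_injective_of_retraction (V : T.Opens) : Function.Injective (p.app V).hom := by
  intro z z' h
  rw [← secApp_app p s hsp V z, ← secApp_app p s hsp V z']
  exact congrArg _ h

variable {L L' L'' : X.Modules} {V V' : T.Opens}

/-- Pullback of a local morphism over `p⁻¹ V` along the section, as a local morphism over `V`. -/
noncomputable def LocalHom.pullSec (f : LocalHom L L' (p ⁻¹ᵁ V)) :
    LocalHom ((pullback s).obj L) ((pullback s).obj L') V :=
  (f.pullbackAlong s).restrict (le_of_eq (preimage_preimage_of_retraction p s hsp V).symm)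

@[simp] lemma LocalHom.pullSec_id :
    (LocalHom.id L (p ⁻¹ᵁ V)).pullSec p s hsp = LocalHom.id ((pullback s).obj L) V := by
  rw [LocalHom.pullSec, LocalHom.pullbackAlong_id, LocalHom.restrict_id]

lemma LocalHom.pullSec_comp (f : LocalHom L L' (p ⁻¹ᵁ V)) (g : LocalHom L' L'' (p ⁻¹ᵁ V)) :
    (f.comp g).pullSec p s hsp = (f.pullSec p s hsp).comp (g.pullSec p s hsp) := by
  rw [LocalHom.pullSec, LocalHom.pullbackAlong_comp, LocalHom.restrict_comp]
  rfl

lemma LocalHom.pullSec_restrict (f : LocalHom L L' (p ⁻¹ᵁ V)) (hle : V' ≤ V) :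
    (f.restrict (p.preimage_mono hle)).pullSec p s hsp = (f.pullSec p s hsp).restrict hle := by
  rw [LocalHom.pullSec, LocalHom.pullbackAlong_restrict, LocalHom.restrict_restrict,
    LocalHom.pullSec, LocalHom.restrict_restrict]

lemma LocalHom.pullSec_scalar (r : Γ(X, p ⁻¹ᵁ V)) :
    (LocalHom.scalar L (p ⁻¹ᵁ V) r).pullSec p s hsp =
      LocalHom.scalar ((pullback s).obj L) V (secApp p s hsp V r) := by
  rw [LocalHom.pullSec, LocalHom.pullbackAlong_scalar, LocalHom.scalar_restrict]
  rfl

lemma LocalHom.pullSec_ofHom (f₀ : L ⟶ L') :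
    (LocalHom.ofHom f₀ (p ⁻¹ᵁ V)).pullSec p s hsp = LocalHom.ofHom ((pullback s).map f₀) V := by
  rw [LocalHom.pullSec, LocalHom.pullbackAlong_ofHom, LocalHom.ofHom_restrict]

/-- Pullback of a local isomorphism over `p⁻¹ V` along the section. -/
noncomputable def LocalIso.pullSec (α : LocalIso L L' (p ⁻¹ᵁ V)) :
    LocalIso ((pullback s).obj L) ((pullback s).obj L') V where
  hom := α.hom.pullSec p s hsp
  inv := α.inv.pullSec p s hsp
  hom_inv_id := by rw [← LocalHom.pullSec_comp, α.hom_inv_id, LocalHom.pullSec_id]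
  inv_hom_id := by rw [← LocalHom.pullSec_comp, α.inv_hom_id, LocalHom.pullSec_id]

@[simp] lemma LocalIso.pullSec_hom (α : LocalIso L L' (p ⁻¹ᵁ V)) :
    (α.pullSec p s hsp).hom = α.hom.pullSec p s hsp := rfl

end Retraction


section Rigidity

variable {X T : Scheme.{u}} (p : X ⟶ T) (s : T ⟶ X) (hsp : s ≫ p = 𝟙 T)
  {L L' : X.Modules} {V : T.Opens}

/-- Normalisation: a local isomorphism over `p⁻¹ V` can be rescaled by a unit coming from `V` so
that its pullback along the section is any prescribed local isomorphism over `V`. -/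
lemma LocalIso.exists_normalise (hT : IsLocallyTrivial ((pullback s).obj L) V)
    (α : LocalIso L L' (p ⁻¹ᵁ V)) (σ : LocalIso ((pullback s).obj L) ((pullback s).obj L') V) :
    ∃ α' : LocalIso L L' (p ⁻¹ᵁ V), α'.hom.pullSec p s hsp = σ.hom := by
  obtain ⟨v, hv, -⟩ := LocalIso.existsUnique_unit hT σ (α.pullSec p s hsp)
  let u : (Γ(X, p ⁻¹ᵁ V))ˣ := Units.map (p.app V).hom.toMonoidHom v⁻¹
  refine ⟨(LocalIso.scalarUnit L (p ⁻¹ᵁ V) u).trans α, ?_⟩
  have hu : secApp p s hsp V (u : Γ(X, p ⁻¹ᵁ V)) = ((v⁻¹ : (Γ(T, V))ˣ) : Γ(T, V)) :=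
    secApp_app p s hsp V _
  rw [LocalIso.pullSec_hom] at hv
  change ((LocalHom.scalar L (p ⁻¹ᵁ V) u).comp α.hom).pullSec p s hsp = σ.hom
  rw [LocalHom.pullSec_comp, LocalHom.pullSec_scalar, hu, hv, ← LocalHom.comp_assoc,
    ← LocalHom.scalar_mul, Units.mul_inv, LocalHom.scalar_one, LocalHom.id_comp]

include hsp in
/-- A function on `p⁻¹ V` which restricts to `1` along the section is `1`, if all functions on
`p⁻¹ V` come from `V`. -/
lemma eq_one_of_secApp_eq_one (HΓ : Function.Surjective (p.app V).hom)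
    (w : Γ(X, p ⁻¹ᵁ V)) (hw : secApp p s hsp V w = 1) : w = 1 := by
  obtain ⟨z, rfl⟩ := HΓ w
  have hz : z = 1 := by
    rw [← hw]
    exact (secApp_app p s hsp V z).symm
  rw [hz, map_one]

/-- Rigidity: two local isomorphisms over `p⁻¹ V` out of a locally trivial module, with the same
pullback along the section, are equal. -/
lemma LocalIso.hom_eq_of_pullSec_eq (HΓ : Function.Surjective (p.app V).hom)
    (hL : IsLocallyTrivial L (p ⁻¹ᵁ V)) (hT : IsLocallyTrivial ((pullback s).obj L) V)
    (α β : LocalIso L L' (p ⁻¹ᵁ V))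
    (h : α.hom.pullSec p s hsp = β.hom.pullSec p s hsp) : α.hom = β.hom := by
  obtain ⟨w, hw, -⟩ := LocalIso.existsUnique_unit hL α β
  have h1 : β.hom.pullSec p s hsp =
      (LocalHom.scalar ((pullback s).obj L) V (secApp p s hsp V w)).comp
        (α.hom.pullSec p s hsp) := by
    rw [hw, LocalHom.pullSec_comp, LocalHom.pullSec_scalar]
  have h2 : LocalHom.scalar ((pullback s).obj L) V (secApp p s hsp V w) =
      LocalHom.scalar ((pullback s).obj L) V 1 := by
    have h3 : (β.hom.pullSec p s hsp).comp (α.inv.pullSec p s hsp) =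
        ((LocalHom.scalar ((pullback s).obj L) V (secApp p s hsp V w)).comp
          (α.hom.pullSec p s hsp)).comp (α.inv.pullSec p s hsp) := by rw [← h1]
    rw [← h, LocalHom.comp_assoc, ← LocalHom.pullSec_comp, α.hom_inv_id, LocalHom.pullSec_id,
      LocalHom.comp_id] at h3
    rw [← h3, LocalHom.scalar_one]
  have h4 : (w : Γ(X, p ⁻¹ᵁ V)) = 1 :=
    eq_one_of_secApp_eq_one p s hsp HΓ _ (LocalHom.scalar_injective hT h2)
  rw [hw, h4, LocalHom.scalar_one, LocalHom.id_comp]

end Rigidity


section Sep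

variable {X T : Scheme.{u}}

/-- **Separatedness of rigidified line bundles, abstract retraction form.**  Let `p : X ⟶ T` have
a section `s`, and assume that all functions on `p⁻¹ V` come from `V` (for all opens `V` of `T`).
Two modules on `X`, the first invertible, both trivial along the section, which are isomorphic
over `p⁻¹ (U i)` for an open cover `U` of `T`, are isomorphic. -/
theorem sep_of_retraction (p : X ⟶ T) (s : T ⟶ X) (hsp : s ≫ p = 𝟙 T)
    (HΓ : ∀ V : T.Opens, Function.Surjective (p.app V).hom)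
    {ι : Type*} (U : ι → T.Opens) (hU : iSup U = ⊤)
    (L L' : X.Modules) (hL : Scheme.Modules.IsInvertible L)
    (ρ : Nonempty ((Scheme.Modules.pullback s).obj L ≅ SheafOfModules.unit T.ringCatSheaf))
    (ρ' : Nonempty ((Scheme.Modules.pullback s).obj L' ≅ SheafOfModules.unit T.ringCatSheaf))
    (α : ∀ i, Nonempty (LocalIso L L' (p ⁻¹ᵁ U i))) :
    Nonempty (L ≅ L') := by
  obtain ⟨ρ⟩ := ρ
  obtain ⟨ρ'⟩ := ρ'
  rw [isInvertible_iff_isLocallyTrivial] at hL
  have hT : IsLocallyTrivial ((pullback s).obj L) ⊤ :=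
    (IsLocallyTrivial.unitMod ⊤).of_localIso (LocalIso.ofIso ρ ⊤)
  let σ : (pullback s).obj L ≅ (pullback s).obj L' := ρ ≪≫ ρ'.symm
  -- normalise the local isomorphisms
  have hnorm : ∀ i, ∃ α' : LocalIso L L' (p ⁻¹ᵁ U i),
      α'.hom.pullSec p s hsp = (LocalIso.ofIso σ (U i)).hom := fun i =>
    LocalIso.exists_normalise p s hsp (hT.mono le_top) (α i).some _
  choose α' hα' using hnorm
  -- the normalised isomorphisms agree on overlaps
  have hcompat : ∀ i j, (α' i).hom.restrict (p.preimage_mono (inf_le_left : U i ⊓ U j ≤ U i)) =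
      (α' j).hom.restrict (p.preimage_mono (inf_le_right : U i ⊓ U j ≤ U j)) := by
    intro i j
    refine LocalIso.hom_eq_of_pullSec_eq p s hsp (HΓ _) (hL.mono le_top) (hT.mono le_top)
      ((α' i).restrict (p.preimage_mono inf_le_left))
      ((α' j).restrict (p.preimage_mono inf_le_right)) ?_
    rw [LocalIso.restrict_hom, LocalIso.restrict_hom,
      LocalHom.pullSec_restrict p s hsp (α' i).hom inf_le_left,
      LocalHom.pullSec_restrict p s hsp (α' j).hom inf_le_right, hα' i, hα' j]
    rfl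
  obtain ⟨e, -⟩ := LocalIso.exists_iso_of_cover (fun i => p ⁻¹ᵁ U i)
    (p.iSup_preimage_eq_top hU) α' hcompat
  exact ⟨e⟩

end Sep

section Glue

variable {X T : Scheme.{u}}

/-- **Gluing of rigidified line bundles, abstract retraction form.**  Let `p : X ⟶ T` have a
section `s`, and assume that all functions on `p⁻¹ V` come from `V`.  A family of modules `E i`
on `X`, locally trivial over `p⁻¹ (U i)` and trivialised along the section over `U i`, which are
pairwise isomorphic over `p⁻¹ (U i ⊓ U j)` (no cocycle condition required), comes from an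
invertible module `L` on `X`, trivial along the section, isomorphic to `E i` over `p⁻¹ (U i)`. -/
theorem glue_of_retraction (p : X ⟶ T) (s : T ⟶ X) (hsp : s ≫ p = 𝟙 T)
    (HΓ : ∀ V : T.Opens, Function.Surjective (p.app V).hom)
    {ι : Type u} (U : ι → T.Opens) (hU : iSup U = ⊤)
    (E : ι → X.Modules) (hE : ∀ i, IsLocallyTrivial (E i) (p ⁻¹ᵁ U i))
    (ρ : ∀ i, Nonempty (LocalIso ((Scheme.Modules.pullback s).obj (E i))
      (SheafOfModules.unit T.ringCatSheaf) (U i)))
    (φ : ∀ i j, Nonempty (LocalIso (E i) (E j) (p ⁻¹ᵁ (U i ⊓ U j)))) :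
    ∃ L : X.Modules, Scheme.Modules.IsInvertible L ∧
      Nonempty ((Scheme.Modules.pullback s).obj L ≅ SheafOfModules.unit T.ringCatSheaf) ∧
      ∀ i, Nonempty (LocalIso L (E i) (p ⁻¹ᵁ U i)) := by
  have ρ : ∀ i, LocalIso ((pullback s).obj (E i)) (unitMod T) (U i) := fun i => (ρ i).some
  have hT : ∀ i, IsLocallyTrivial ((pullback s).obj (E i)) (U i) := fun i =>
    (IsLocallyTrivial.unitMod (U i)).of_localIso (ρ i)
  let σ : ∀ i j, LocalIso ((pullback s).obj (E i)) ((pullback s).obj (E j)) (U i ⊓ U j) :=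
    fun i j => ((ρ i).restrict inf_le_left).trans ((ρ j).restrict inf_le_right).symm
  have hnorm : ∀ i j, ∃ φ' : LocalIso (E i) (E j) (p ⁻¹ᵁ (U i ⊓ U j)),
      φ'.hom.pullSec p s hsp = (σ i j).hom := fun i j =>
    LocalIso.exists_normalise p s hsp ((hT i).mono inf_le_left) (φ i j).some (σ i j)
  choose φ' hφ' using hnorm
  -- the normalised transition isomorphisms are the identity on the diagonal
  have hid : ∀ i, (φ' i i).hom = LocalHom.id (E i) (p ⁻¹ᵁ (U i ⊓ U i)) := by
    intro i
    refine LocalIso.hom_eq_of_pullSec_eq p s hsp (HΓ _)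
      ((hE i).mono (p.preimage_mono inf_le_left)) ((hT i).mono inf_le_left)
      (φ' i i) (LocalIso.refl _ _) ?_
    rw [hφ' i i, LocalIso.refl_hom, LocalHom.pullSec_id]
    exact ((ρ i).restrict inf_le_left).hom_inv_id
  -- and satisfy the cocycle condition
  have hcoc : ∀ i j k,
      ((φ' i j).hom.restrict (p.preimage_mono
        (inf_le_left : U i ⊓ U j ⊓ U k ≤ U i ⊓ U j))).comp
      ((φ' j k).hom.restrict (p.preimage_mono
        (le_inf (inf_le_left.trans inf_le_right) inf_le_right :
          U i ⊓ U j ⊓ U k ≤ U j ⊓ U k))) =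
      (φ' i k).hom.restrict (p.preimage_mono
        (le_inf (inf_le_left.trans inf_le_left) inf_le_right :
          U i ⊓ U j ⊓ U k ≤ U i ⊓ U k)) := by
    intro i j k
    have h_ij : U i ⊓ U j ⊓ U k ≤ U i ⊓ U j := inf_le_left
    have h_jk : U i ⊓ U j ⊓ U k ≤ U j ⊓ U k := le_inf (inf_le_left.trans inf_le_right) inf_le_right
    have h_ik : U i ⊓ U j ⊓ U k ≤ U i ⊓ U k := le_inf (inf_le_left.trans inf_le_left) inf_le_right
    refine LocalIso.hom_eq_of_pullSec_eq p s hsp (HΓ _)
      ((hE i).mono (p.preimage_mono (inf_le_left.trans inf_le_left)))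
      ((hT i).mono (inf_le_left.trans inf_le_left))
      (((φ' i j).restrict (p.preimage_mono h_ij)).trans ((φ' j k).restrict (p.preimage_mono h_jk)))
      ((φ' i k).restrict (p.preimage_mono h_ik)) ?_
    rw [LocalIso.trans_hom, LocalIso.restrict_hom, LocalIso.restrict_hom, LocalIso.restrict_hom,
      LocalHom.pullSec_comp, LocalHom.pullSec_restrict p s hsp (φ' i j).hom h_ij,
      LocalHom.pullSec_restrict p s hsp (φ' j k).hom h_jk,
      LocalHom.pullSec_restrict p s hsp (φ' i k).hom h_ik, hφ' i j, hφ' j k, hφ' i k]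
    ext W hW x
    simp only [σ, LocalIso.trans_hom, LocalIso.restrict_hom, LocalIso.symm_hom,
      LocalIso.restrict_inv, LocalHom.comp_app, LocalHom.restrict_app]
    rw [(ρ j).hom_inv_apply]
  -- glue the objects
  obtain ⟨L, β, β', h1, h2, h3⟩ := exists_glue_obj (fun i => p ⁻¹ᵁ U i) E
    (fun i j => (φ' i j).hom) hid hcoc
  let γ : ∀ i, LocalIso L (E i) (p ⁻¹ᵁ U i) := fun i => ⟨β i, β' i, h1 i, h2 i⟩
  have hinv : Scheme.Modules.IsInvertible L :=
    isInvertible_of_cover (fun i => p ⁻¹ᵁ U i) (p.iSup_preimage_eq_top hU)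
      (fun i => (hE i).of_localIso (γ i))
  -- glue the rigidification
  let τ : ∀ i, LocalIso ((pullback s).obj L) (unitMod T) (U i) := fun i =>
    ((γ i).pullSec p s hsp).trans (ρ i)
  have hτ : ∀ i j, (τ i).hom.restrict (inf_le_left : U i ⊓ U j ≤ U i) =
      (τ j).hom.restrict (inf_le_right : U i ⊓ U j ≤ U j) := by
    intro i j
    have e3 : (β j).restrict (p.preimage_mono (inf_le_right : U i ⊓ U j ≤ U j)) =
        ((β i).restrict (p.preimage_mono (inf_le_left : U i ⊓ U j ≤ U i))).comp (φ' i j).hom :=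
      (h3 i j).symm
    change (((β i).pullSec p s hsp).comp (ρ i).hom).restrict _ =
      (((β j).pullSec p s hsp).comp (ρ j).hom).restrict _
    rw [LocalHom.restrict_comp, LocalHom.restrict_comp,
      ← LocalHom.pullSec_restrict p s hsp (β i) inf_le_left,
      ← LocalHom.pullSec_restrict p s hsp (β j) inf_le_right, e3, LocalHom.pullSec_comp, hφ' i j]
    ext W hW x
    simp only [σ, LocalIso.trans_hom, LocalIso.restrict_hom, LocalIso.symm_hom,
      LocalIso.restrict_inv, LocalHom.comp_app, LocalHom.restrict_app]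
    rw [(ρ j).hom_inv_apply]
  obtain ⟨e, -⟩ := LocalIso.exists_iso_of_cover U hU τ hτ
  exact ⟨L, hinv, ⟨e⟩, fun i => ⟨γ i⟩⟩

end Glue

end Fermat.Agent.Jac.ModGlue88
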